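import Fermat.Agent.LT.Theta.Gal.Frob
import Fermat.Agent.LT.Theta.Recip
import Fermat.Agent.LT.Theta.HData

/-!
# The Hecke character of `M`

`hData` is the resulting data of the tower, with the sign `φ` and the values `gH` on elements.
-/

set_option autoImplicit false

noncomputable section

open NumberField Fermat.CFT
open scoped Pointwise Classical

namespace Fermat.LT.Theta

/-- An element congruent to `-1` at one place and to `1` at the others over a finite set. -/
lemma exists_sign_approx {F : Type} [Field F] [NumberField F] (T : Finset (Pl F)) {w : Pl F}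
    (hw : w ∈ T) : ∃ c : Fˣ, CloseOne w 1 ((c : F) / (-1 : Fˣ)) ∧
      ∀ v ∈ T, v ≠ w → CloseOne v 1 (c : F) := by
  obtain ⟨c, hc⟩ := exists_units_approx T (fun v => if v = w then -1 else 1) 1
  refine ⟨c, by simpa using hc w hw, fun v hv hvw => by simpa [hvw] using hc v hv⟩

/-- At a place over `3` the number `2` has order zero. -/
lemma ord_two_eq_zero {E : Type} [Field E] [NumberField E] {v : Pl E}
    (h3 : (3 : 𝓞 E) ∈ v.asIdeal) : CFT.ord v ((2 : ℕ) : E) = 0 := by
  have h2 : ((2 : 𝓞 E) : E) = ((2 : ℕ) : E) := by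
    rw [Nat.cast_ofNat]; exact map_ofNat (algebraMap (𝓞 E) E) 2
  rw [← h2, ord_algebraMap_eq_zero_iff v (by norm_num)]
  intro h
  have := sub_mem h3 h
  rw [show (3 : 𝓞 E) - 2 = 1 by norm_num] at this
  exact v.isPrime.ne_top ((Ideal.eq_top_iff_one _).mpr this)

namespace Gal

namespace QTower

open GL2Tower

variable {K L N : Type} [Field K] [NumberField K] [Field L] [NumberField L] [Algebra K L]
  [Field N] [NumberField N] [Algebra L N] [Algebra K N] [IsScalarTower K L N]
  (T : QTower K L N)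

include T

/-- The set of primes over `3`. -/
def S3 : Finset (Pl T.Mf) :=
  (Ideal.finite_factors (I := Ideal.span {(3 : 𝓞 T.Mf)})
    (by simp)).toFinset

/-- Membership in `S3`. -/
lemma mem_S3 {u : Pl T.Mf} : u ∈ T.S3 ↔ (3 : 𝓞 T.Mf) ∈ u.asIdeal := by
  rw [S3, Set.Finite.mem_toFinset, Set.mem_ofPred_eq, Ideal.dvd_iff_le,
    Ideal.span_singleton_le_iff_mem]

/-- `S3` is stable under `Gal(M/L)`. -/
lemma S3_smul {u : Pl T.Mf} (g : T.Mf ≃ₐ[L] T.Mf) (hu : u ∈ T.S3) : g • u ∈ T.S3 := by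
  rw [mem_S3, smul_asIdeal] at *
  have h := Ideal.smul_mem_pointwise_smul g _ _ hu
  rwa [show g • (3 : 𝓞 T.Mf) = 3 from map_ofNat (MulSemiringAction.toRingHom _ (𝓞 T.Mf) g) 3] at h

/-- The character `g` on elements: the Artin map off the places over `3`. -/
def gH : T.Mfˣ →* ℂˣ :=
  haveI := T.isGalois_NM
  MonoidHom.mk' (fun x => art T.χ (T.S3 : Set (Pl T.Mf)) (x : T.Mf)) fun x y => by
    rw [Units.val_mul, art_mul _ _ x.ne_zero y.ne_zero]

/-- The character on elements as a product over the primes away from `3`. -/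
lemma gH_eq (x : T.Mfˣ) : T.gH x =
    ∏ᶠ P : Pl T.Mf, if (3 : 𝓞 T.Mf) ∈ P.asIdeal then 1 else T.th P ^ CFT.ord P (x : T.Mf) := by
  have := T.isGalois_NM
  change art T.χ _ _ = _
  rw [art]
  refine finprod_congr fun P => ?_
  simp only [Finset.mem_coe, mem_S3, th]

/-- Conjugation inverts the character on elements. -/
lemma gH_σ (x : T.Mfˣ) : T.gH (Units.map (T.σ : T.Mf →* T.Mf) x) = (T.gH x)⁻¹ := by
  rw [gH_eq, gH_eq, ← finprod_inv_distrib,
    ← finprod_comp_equiv (MulAction.toPerm T.σ : Equiv.Perm (Pl T.Mf))]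
  refine finprod_congr fun P => ?_
  rw [MulAction.toPerm_apply]
  have h3 : (3 : 𝓞 T.Mf) ∈ (T.σ • P).asIdeal ↔ (3 : 𝓞 T.Mf) ∈ P.asIdeal := by
    constructor
    · intro h
      have := T.S3_smul T.σ⁻¹ (T.mem_S3.mpr h)
      rw [inv_smul_smul] at this
      exact T.mem_S3.mp this
    · exact fun h => T.mem_S3.mp (T.S3_smul T.σ (T.mem_S3.mpr h))
  by_cases hP : (3 : 𝓞 T.Mf) ∈ P.asIdeal
  · rw [if_pos hP, if_pos (h3.mpr hP), inv_one]
  · rw [if_neg hP, if_neg (fun h => hP (h3.mp h)), T.th_σ (T.unram_under hP), Units.coe_map,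
      show (T.σ : T.Mf →* T.Mf) (x : T.Mf) = T.σ • (x : T.Mf) from rfl, CFT.ord_smul, inv_zpow]

/-- The character on elements takes fourth roots of unity as values. -/
lemma gH_pow_four (x : T.Mfˣ) : T.gH x ^ 4 = 1 := by
  have := T.isGalois_NM
  have h := art_comp T.χ (powMonoidHom 4 : ℂˣ →* ℂˣ) (T.S3 : Set (Pl T.Mf)) (x : T.Mf)
  simp only [powMonoidHom_apply] at h
  rw [show T.gH x = art T.χ _ _ from rfl, h]
  refine art_eq_one_of_forall _ fun v _ => ?_
  rw [MonoidHom.comp_apply, powMonoidHom_apply, T.χ_pow_four, one_zpow]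

/-- `N/M` is unramified outside `S3`. -/
lemma unram_N_S3 {u : Pl N} (h : plUnder T.Mf u ∉ T.S3) : plRamIdx T.Mf u = 1 :=
  (T.unram_N (T.unram fun h3 =>
    h (T.mem_S3.mpr (three_mem_plUnder.mpr (three_mem_plUnder.mp h3))))).1

/-- `M'/M` ramifies only over `S3`. -/
lemma ramPl_Mf' : ∀ v ∈ ramPl (K := T.Mf) T.Mf', v ∈ T.S3 := by
  rintro v ⟨w, rfl, hw⟩
  by_contra h3
  obtain ⟨W, rfl⟩ := CFT.exists_plUnder_eq (F := N) w
  refine hw ?_
  have h := plRamIdx_tower (K := T.Mf) (N := T.Mf') W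
  rw [T.unram_N_S3 (by rwa [plUnder_plUnder'] at h3)] at h
  exact Nat.eq_one_of_mul_eq_one_right h.symm

variable {ζ : K} (hζ : IsPrimitiveRoot ζ 3)

include hζ

/-- The sign of the restriction to `M'`. -/
def φ : (N ≃ₐ[T.Mf] N) →* ℤˣ :=
  (quadSgn T.finrank_Mf').comp (AlgEquiv.restrictNormalHom T.Mf')

/-- The sign is the square of the quartic character. -/
lemma coe_φ (g : N ≃ₐ[T.Mf] N) :
    Units.map (Int.castRingHom ℂ : ℤ →* ℂ) (T.φ g) = T.χ g ^ 2 := by
  have := T.totallyComplex_Mf hζ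
  obtain ⟨n, -, rfl, hn⟩ := T.χ_eq g
  rw [hn, map_pow, map_pow, ← pow_mul, mul_comm, pow_mul, unitI_sq]
  congr 1
  refine Units.ext ?_
  rw [φ, MonoidHom.comp_apply, quadSgn_apply,
    if_neg (show AlgEquiv.restrictNormalHom T.Mf' T.gM ≠ 1 from T.restrict_Mf'_ne_one)]
  simp

/-- The character on elements is trivial on elements close enough to one over `3`. -/
lemma gH_eq_one_of_level : ∃ n : ℕ, ∀ x : T.Mfˣ, (∀ u ∈ T.S3, CloseOne u n (x : T.Mf)) →
    T.gH x = 1 := by
  have := T.isGalois_NM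
  have := T.totallyComplex_Mf hζ
  refine exists_art_eq_one (F := T.Mf') T.isCyclic_N (by rw [T.card_N]; norm_num)
    T.finrank_Mf' T.restrict_Mf'_ne_one (fun v hv => ?_) (fun w hw => ?_) (fun u hu => ?_) T.χ
  · exact ord_two_eq_zero (T.mem_S3.mp (T.ramPl_Mf' v hv))
  · obtain ⟨W, rfl, hW⟩ := hw
    by_contra h
    have h3 : (3 : 𝓞 N) ∉ W.asIdeal := fun h3 => h (ord_two_eq_zero (three_mem_plUnder.mpr h3))
    refine hW ?_
    have h' := plRamIdx_tower (K := T.Mf) (N := T.Mf') W
    rw [(T.unram_N (T.unram fun h => h3 (three_mem_plUnder.mp h))).1] at h'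
    exact Nat.eq_one_of_mul_eq_one_left h'.symm
  · exact T.unram_N_S3 hu

/-- `g` is trivial on elements congruent to one modulo the places over `3`. -/
lemma gH_eq_one {x : T.Mfˣ} (h : ∀ u ∈ T.S3, CloseOne u 1 (x : T.Mf)) : T.gH x = 1 := by
  obtain ⟨n, hn⟩ := T.gH_eq_one_of_level hζ
  have h1 : T.gH (x ^ 3 ^ n) = 1 := hn _ fun u hu => by
    rw [Units.val_pow_eq_pow_val]
    exact closeOne_mono (closeOne_pow_three_pow (T.mem_S3.mp hu) (h u hu) n) (by push_cast; omega)
  rw [map_pow] at h1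
  have h4 := T.gH_pow_four x
  have hco : Nat.Coprime (3 ^ n) 4 := Nat.Coprime.pow_left n (by norm_num)
  exact (pow_one _).symm.trans (hco ▸ pow_gcd_eq_one.mpr ⟨h1, h4⟩)

omit hζ in
/-- Approximation of `x` at `u` by an element close to `1` at the other places over `3`. -/
lemma exists_loc (u : Pl T.Mf) (x : T.Mfˣ) : ∃ y : T.Mfˣ,
    ∀ v ∈ T.S3, CloseOne v 1 ((y : T.Mf) / ((if v = u then x else 1 : T.Mfˣ) : T.Mf)) :=
  exists_units_approx T.S3 _ 1

/-- Elements congruent modulo all places over `3` have equal values. -/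
lemma gH_congr {y y' : T.Mfˣ} (h : ∀ v ∈ T.S3, CloseOne v 1 ((y : T.Mf) / y')) :
    T.gH y = T.gH y' := by
  have := T.gH_eq_one hζ (x := y / y') fun v hv => by
    rw [Units.val_div_eq_div_val]; exact h v hv
  rwa [map_div, div_eq_one] at this

/-- The value does not depend on the approximation. -/
lemma gH_loc {u : Pl T.Mf} {x y y' : T.Mfˣ}
    (h : ∀ v ∈ T.S3, CloseOne v 1 ((y : T.Mf) / ((if v = u then x else 1 : T.Mfˣ) : T.Mf)))
    (h' : ∀ v ∈ T.S3, CloseOne v 1 ((y' : T.Mf) / ((if v = u then x else 1 : T.Mfˣ) : T.Mf))) :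
    T.gH y = T.gH y' :=
  T.gH_congr hζ fun v hv => by
    set t : T.Mfˣ := if v = u then x else 1
    have := (h v hv).mul Int.one_pos ((h' v hv).inv Int.one_pos (div_ne_zero y'.ne_zero t.ne_zero))
      (inv_ne_zero (div_ne_zero y'.ne_zero t.ne_zero))
    rwa [inv_div, div_mul_div_cancel₀ t.ne_zero] at this

/-- The local component at `u`. -/
def thetaU (u : Pl T.Mf) : T.Mfˣ →* ℂˣ :=
  MonoidHom.mk' (fun x => (T.gH (T.exists_loc u x).choose)⁻¹) fun x x' => by
    rw [← mul_inv, ← map_mul]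
    congr 1
    refine T.gH_loc hζ (T.exists_loc u (x * x')).choose_spec fun v hv => ?_
    have h1 := (T.exists_loc u x).choose_spec v hv
    have h2 := (T.exists_loc u x').choose_spec v hv
    have := h1.mul Int.one_pos h2 (div_ne_zero (Units.ne_zero _) (Units.ne_zero _))
    rw [div_mul_div_comm] at this
    by_cases h : v =
      u <;> simp only [h, if_true, if_false, Units.val_mul, Units.val_one, mul_one] at this ⊢ <;>
      exact this

/-- The local component computed by any approximation. -/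
lemma thetaU_eq {u : Pl T.Mf} {x y : T.Mfˣ}
    (h : ∀ v ∈ T.S3, CloseOne v 1 ((y : T.Mf) / ((if v = u then x else 1 : T.Mfˣ) : T.Mf))) :
    T.thetaU hζ u x = (T.gH y)⁻¹ :=
  congrArg (·⁻¹) (T.gH_loc hζ (T.exists_loc u x).choose_spec h)

/-- The local component is trivial on principal units. -/
lemma thetaU_one {u : Pl T.Mf} {x : T.Mfˣ} (h : CloseOne u 1 (x : T.Mf)) :
    T.thetaU hζ u x = 1 := by
  rw [T.thetaU_eq hζ (y := 1) fun v _ => ?_, map_one, inv_one]
  by_cases hv : v = u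
  · rw [if_pos hv, Units.val_one, one_div, hv]; exact h.inv Int.one_pos x.ne_zero
  · rw [if_neg hv, Units.val_one, one_div, inv_one]; exact Or.inl rfl

/-- The local component takes fourth roots of unity as values. -/
lemma thetaU_four (u : Pl T.Mf) (x : T.Mfˣ) : T.thetaU hζ u x ^ 4 = 1 := by
  change (T.gH _)⁻¹ ^ 4 = 1
  rw [inv_pow, T.gH_pow_four, inv_one]

/-- Conjugation inverts the local component. -/
lemma thetaU_σ {u : Pl T.Mf} (x : T.Mfˣ) :
    T.thetaU hζ u (Units.map (T.σ : T.Mf →* T.Mf) x) = (T.thetaU hζ u x)⁻¹ := by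
  obtain ⟨y, hy⟩ := T.exists_loc u x
  rw [T.thetaU_eq hζ (y := Units.map (T.σ : T.Mf →* T.Mf) y) fun v hv => ?_, gH_σ, inv_inv,
    T.thetaU_eq hζ hy, inv_inv]
  have hs : T.σ • v = v := T.smul_Mf hζ (T.mem_S3.mp hv) T.σ
  have h := closeOne_smul T.σ (hy v hv)
  rw [hs] at h
  convert h using 1
  rw [show T.σ • ((y : T.Mf) / ((if v = u then x else 1 : T.Mfˣ) : T.Mf)) =
    T.σ ((y : T.Mf) / ((if v = u then x else 1 : T.Mfˣ) : T.Mf)) from rfl, map_div₀]
  by_cases hv : v = u <;> simp [hv]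

/-- The character on elements is inverse to the product of the local components over `3`. -/
lemma prod_thetaU (x : T.Mfˣ) : T.gH x * ∏ u ∈ T.S3, T.thetaU hζ u x = 1 := by
  have h : ∀ u, T.thetaU hζ u x = (T.gH (T.exists_loc u x).choose)⁻¹ := fun u => rfl
  rw [Finset.prod_congr rfl fun u _ => h u, Finset.prod_inv_distrib, ← map_prod, ← div_eq_mul_inv,
    div_eq_one]
  refine T.gH_congr hζ fun v hv => ?_
  rw [Units.coe_prod, ← Finset.mul_prod_erase _ _ hv]
  set a : T.Mf := ((T.exists_loc v x).choose : T.Mf) with ha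
  set b : T.Mf := ∏ u ∈ T.S3.erase v, ((T.exists_loc u x).choose : T.Mf) with hb
  have ha0 : a ≠ 0 := Units.ne_zero _
  have hb0 : b ≠ 0 := Finset.prod_ne_zero_iff.mpr fun u _ => Units.ne_zero _
  have h1 : CloseOne v 1 (a / (x : T.Mf)) := by
    have := (T.exists_loc v x).choose_spec v hv
    rwa [if_pos rfl] at this
  have h2 : CloseOne v 1 b := by
    refine Finset.prod_induction _ (fun z => CloseOne v 1 z ∧ z ≠ 0) ?_ ?_ ?_ |>.1
    · exact fun z z' hz hz' => ⟨hz.1.mul Int.one_pos hz'.1 hz'.2, mul_ne_zero hz.2 hz'.2⟩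
    · exact ⟨Or.inl rfl, one_ne_zero⟩
    · intro u hu
      have := (T.exists_loc u x).choose_spec v hv
      rw [if_neg (fun e => Finset.ne_of_mem_erase hu e.symm), Units.val_one, div_one] at this
      exact ⟨this, Units.ne_zero _⟩
  have := (h1.mul Int.one_pos h2 hb0).inv Int.one_pos
    (mul_ne_zero (div_ne_zero ha0 x.ne_zero) hb0)
  rwa [div_mul_eq_mul_div, inv_div] at this

/-- Order four at an unramified place over `3`. -/
lemma exists_sq_neg_one {W : Pl N} (h3 : (3 : 𝓞 N) ∈ W.asIdeal) (hW : Congr T.y₁ W 1) :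
    ∃ y : T.Mfˣ, CFT.ord (plUnder T.Mf W) (y : T.Mf) = 0 ∧
      T.thetaU hζ (plUnder T.Mf W) y ^ 2 = -1 := by
  have := T.isGalois_NM
  have := T.totallyComplex_Mf hζ
  set u := plUnder T.Mf W with hu
  have h3u : (3 : 𝓞 T.Mf) ∈ u.asIdeal := three_mem_plUnder.mpr h3
  set u' := plUnder T.Mf' W
  have huu : plUnder T.Mf u' = u := plUnder_plUnder' (N := T.Mf') W
  set s := T.gM.restrictNormal T.Mf'
  have hs : s ≠ 1 := T.restrict_Mf'_ne_one
  have he : plRamIdx T.Mf u' = 2 := by
    have hg : Congr T.gM W 1 := fun x => hW x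
    have hne : plRamIdx T.Mf u' ≠ 1 := plRamIdx_ne_one_of_inert (hg.restrictNormal (N := T.Mf')) hs
    rcases quadratic_cases (w := u') T.finrank_Mf' (fun g => by
      obtain ⟨i, -, rfl⟩ := exists_eq_generator_pow T.finrank_Mf' hs g
      exact pow_smul_eq_self (smul_eq_of_plRamIdx T.finrank_Mf' hs hne) i) with h | h
    · exact absurd h.1 hne
    · exact h.1
  obtain ⟨y, hy0, hyn⟩ := exists_unit_not_norm T.finrank_Mf' hs he
  rw [huu] at hy0 hyn
  refine ⟨y, hy0, ?_⟩
  obtain ⟨z, hz⟩ := T.exists_loc u y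
  rw [T.thetaU_eq hζ hz, inv_pow]
  suffices T.gH z ^ 2 = -1 by rw [this, inv_neg, inv_one]
  -- the square of `gH z` is the sign of the number of non-norm places of `z` away from `3`
  have hcomp : T.gH z ^ 2 = Units.map (Int.castRingHom ℂ : ℤ →* ℂ)
      (art T.φ (T.S3 : Set (Pl T.Mf)) (z : T.Mf)) := by
    rw [art_comp, show (Units.map (Int.castRingHom ℂ : ℤ →* ℂ)).comp T.φ
      = (powMonoidHom 2).comp T.χ from MonoidHom.ext fun g => T.coe_φ hζ g, ← art_comp]
    rfl
  have hun : IsNonsplit s u := huu ▸ isNonsplit_of_plRamIdx T.finrank_Mf' hs (by omega)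
  rw [hcomp, art_eq_neg_one_pow T.finrank_Mf' hs T.φ _ T.ramPl_Mf' (fun v hv => ?_) z]
  · have hinter : nonNorm s z ∩ (T.S3 : Set (Pl T.Mf)) = {u} := by
      ext v
      simp only [Set.mem_inter_iff, Finset.mem_coe, Set.mem_singleton_iff]
      constructor
      · rintro ⟨hv, hv3⟩
        by_contra hne
        have := hz v hv3
        rw [if_neg hne, Units.val_one, div_one] at this
        exact hv.2 (mem_lnorms_of_one T.finrank_Mf' (T.mem_S3.mp hv3) this)
      · rintro rfl
        have hm : u ∈ T.S3 := T.mem_S3.mpr h3u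
        refine ⟨⟨hun, fun hzm => hyn ?_⟩, hm⟩
        have hq := hz u hm
        rw [if_pos rfl, ← Units.val_div_eq_div_val] at hq
        have := div_mem hzm (mem_lnorms_of_one (F := T.Mf') T.finrank_Mf' h3u hq)
        rwa [div_div_cancel] at this
    have heven := even_ncard_nonNorm T.finrank_Mf' hs
      (fun v hv => ord_two_eq_zero (T.mem_S3.mp (T.ramPl_Mf' v hv))) z
    rw [← Set.ncard_inter_add_ncard_sdiff_eq_ncard (nonNorm s z) (T.S3 : Set (Pl T.Mf))
      (nonNorm_finite T.finrank_Mf' hs z), hinter, Set.ncard_singleton] at heven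
    have hodd : Odd (nonNorm s z \ (T.S3 : Set (Pl T.Mf))).ncard := by
      rw [← Nat.not_even_iff_odd]
      intro hev
      rw [Nat.even_add] at heven
      exact Nat.not_even_one (heven.mpr hev)
    rw [hodd.neg_one_pow]
    exact Units.ext (by simp)
  · have hram : v ∉ ramPl (K := T.Mf) T.Mf' := fun h => hv (T.ramPl_Mf' v h)
    have hg := congr_frobEl (K := T.Mf) (plOver N v)
    rw [plUnder_plOver] at hg
    have hunder : plUnder T.Mf (plUnder T.Mf' (plOver N v)) = v := by
      rw [plUnder_plUnder', plUnder_plOver]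
    rw [show frobPl N v = frobEl T.Mf (plOver N v) from rfl, φ, MonoidHom.comp_apply, quadSgn_apply]
    have key :=
      isNonsplit_iff_congr T.finrank_Mf' hs hunder (plRamIdx_eq_one_of_not_ram hram hunder)
      (hg.restrictNormal (N := T.Mf'))
    by_cases h : (frobEl T.Mf (plOver N v)).restrictNormal T.Mf' = 1
    · rw [if_pos (show AlgEquiv.restrictNormalHom T.Mf' (frobEl T.Mf (plOver N v)) = 1 from h),
        if_neg fun hn => key.mp hn h]
    · rw [if_neg (show ¬ AlgEquiv.restrictNormalHom T.Mf' (frobEl T.Mf (plOver N v)) = 1 from h),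
        if_pos (key.mpr h)]

/-- The sign at a ramified place over `3`. -/
lemma thetaU_neg_one {u : Pl T.Mf} (h3 : (3 : 𝓞 T.Mf) ∈ u.asIdeal) (he : plRamIdx L u = 2) :
    T.thetaU hζ u (-1) = -1 := by
  have := T.isGalois_NM
  have := totallyComplex_of_zeta hζ
  have : IsTotallyComplex L := isTotallyComplex_of_algebra (F := K) (K := L)
  set w := plUnder L u with hw
  have h3w : (3 : 𝓞 L) ∈ w.asIdeal := three_mem_plUnder.mpr h3
  have hq : resCard u = 3 := by
    have hst := quadratic_cases (K := L) (w := u) T.finrank_Mf (fun g => T.smul_Mf hζ h3 g)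
    rw [← hw, T.resCard_L hζ h3w] at hst
    rcases hst with h | h
    · omega
    · exact h.2
  set T3 := T.S3.image (plUnder L) with hT3
  have hmem : ∀ v : Pl L, v ∈ T3 ↔ (3 : 𝓞 L) ∈ v.asIdeal := by
    intro v
    rw [hT3, Finset.mem_image]
    constructor
    · rintro ⟨P, hP, rfl⟩; exact three_mem_plUnder.mpr (T.mem_S3.mp hP)
    · intro h
      obtain ⟨P, rfl⟩ := CFT.exists_plUnder_eq (F := T.Mf) v
      exact ⟨P, T.mem_S3.mpr (three_mem_plUnder.mp h), rfl⟩
  have hwT : w ∈ T3 := (hmem w).mpr h3w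
  obtain ⟨c, hcw, hc⟩ := exists_sign_approx T3 hwT
  -- lift `c` to `M`: it is near `-1` at `u` and near `1` at the other places over `3`
  set c' : T.Mfˣ := Units.map (algebraMap L T.Mf : L →* T.Mf) c
  have hlift : ∀ (v : Pl T.Mf) (z : L), CloseOne (plUnder L v) 1 z →
      CloseOne v 1 (algebraMap L T.Mf z) := by
    intro v z hz
    rcases hz with rfl | hz
    · exact Or.inl (map_one _)
    · refine Or.inr ?_
      rw [← map_one (algebraMap L T.Mf), ← map_sub, CFT.ord_algebraMap_eq]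
      have : (1 : ℤ) ≤ plRamIdx L v := by exact_mod_cast plRamIdx_pos (K := L) v
      exact hz.trans (le_mul_of_one_le_left (by omega) this)
  have hloc : ∀ v ∈ T.S3, CloseOne v 1
      ((c' : T.Mf) / ((if v = u then -1 else 1 : T.Mfˣ) : T.Mf)) := by
    intro v hv
    by_cases hvu : v = u
    · subst hvu
      rw [if_pos rfl]
      have := hlift v _ hcw
      rw [map_div₀] at this
      simpa [c'] using this
    · rw [if_neg hvu, Units.val_one, div_one]
      refine hlift v _ (hc _ ((hmem _).mpr (three_mem_plUnder.mpr (T.mem_S3.mp hv)))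
        fun e => hvu ?_)
      obtain ⟨g, hg⟩ := exists_smul_eq_of_plUnder_eq (K := L) (w := u) (w' := v) (by rw [e])
      rw [← hg, T.smul_Mf hζ h3 g]
  have hS : ∀ P : Pl T.Mf, ((3 : 𝓞 T.Mf) ∈ P.asIdeal) = (plUnder L P ∈ (T3 : Set (Pl L))) :=
      fun P =>
    propext ⟨fun h => (hmem _).mpr (three_mem_plUnder.mpr h),
      fun h => three_mem_plUnder.mp ((hmem _).mp h)⟩
  have hram : (ramPl (K := L) T.Mf) ⊆ (T3 : Set (Pl L)) := by
    rintro v ⟨P, rfl, hP⟩
    by_contra h
    exact hP (T.unram_Mf (T.unram_under fun h3 => h (by rwa [← hS])))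
  have hwn : w ∈ nonNorm T.σ c := by
    refine ⟨isNonsplit_of_plRamIdx T.finrank_Mf T.σ_ne_one (by omega), fun hm => ?_⟩
    refine neg_one_not_mem_lnorms T.finrank_Mf T.σ_ne_one h3w he hq ?_
    have h' : c / (-1) ∈ lnorms T.Mf w := mem_lnorms_of_one T.finrank_Mf h3w (by
      rw [Units.val_div_eq_div_val]; exact hcw)
    have := div_mem hm h'
    rwa [div_div_cancel] at this
  have hinter : nonNorm T.σ c ∩ (T3 : Set (Pl L)) = {w} := by
    ext v
    simp only [Set.mem_inter_iff, Finset.mem_coe, Set.mem_singleton_iff]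
    constructor
    · rintro ⟨hv, hvT⟩
      by_contra hne
      exact hv.2 (mem_lnorms_of_one T.finrank_Mf ((hmem v).mp hvT) (hc v hvT hne))
    · rintro rfl; exact ⟨hwn, hwT⟩
  have hdy : ∀ v ∈ ramPl (K := L) T.Mf, CFT.ord v ((2 : ℕ) : L) = 0 := fun v hv =>
    ord_two_eq_zero ((hmem v).mp (hram hv))
  -- the product formula for `c`: an odd number of non-norm places away from `3`
  have heven := even_ncard_nonNorm T.finrank_Mf T.σ_ne_one hdy c
  rw [← Set.ncard_inter_add_ncard_sdiff_eq_ncard (nonNorm T.σ c) (T3 : Set (Pl L))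
    (nonNorm_finite T.finrank_Mf T.σ_ne_one c), hinter, Set.ncard_singleton] at heven
  have hodd : Odd (nonNorm T.σ c \ (T3 : Set (Pl L))).ncard := by
    rw [← Nat.not_even_iff_odd]
    intro hev
    rw [Nat.even_add] at heven
    exact Nat.not_even_one (heven.mpr hev)
  rw [T.thetaU_eq hζ hloc, gH_eq]
  have h := finprod_pow_ord_algebraMap T.finrank_Mf T.σ_ne_one T.th hram
    (fun P hP => T.th_σ (T.unram_under (by rwa [hS]))) (-1) (by rw [neg_one_mul, neg_neg])
    (fun P hP hs => ((T.th_cases (T.unram_under (by rwa [hS]))).1 hs).1) c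
  rw [hodd.neg_one_pow] at h
  rw [inv_eq_iff_eq_inv, inv_neg, inv_one, ← h]
  refine finprod_congr fun P => ?_
  simp only [hS, Finset.mem_coe, c', Units.coe_map, MonoidHom.coe_coe]

/-- The Hecke data of the tower. -/
def hData : HData T.σ T.frobLam where
  finrank := T.finrank_Mf
  galois := inferInstance
  σ_ne := T.σ_ne_one
  q3 _ := T.resCard_L hζ
  th := T.th
  th_four := T.th_four
  th_σ _ h := T.th_σ (T.unram_under h)
  th_inert _ h hs := ((T.th_cases (T.unram_under h)).1 hs).1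
  unram _ h := T.unram_Mf (T.unram_under h)
  sM := T.S3
  mem_sM _ := T.mem_S3
  θ := T.thetaU hζ
  θ_four := T.thetaU_four hζ
  θ_one _ _ _ := T.thetaU_one hζ
  θ_σ _ _ := T.thetaU_σ hζ
  stable u hu := T.smul_Mf hζ (T.mem_S3.mp hu) T.σ
  dich u hu := by
    have h3 := T.mem_S3.mp hu
    -- above 3: take a tame inertia generator `y` and split on `y ∈ C`
    obtain ⟨W, rfl⟩ := CFT.exists_plUnder_eq (F := N) u
    have h3W : (3 : 𝓞 N) ∈ W.asIdeal := three_mem_plUnder.mp h3
    obtain ⟨y, hy, hyI⟩ := T.exists_tame h3W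
    obtain ⟨h1, h2⟩ := T.cases3 hζ h3W hy hyI
    by_cases hyC : y ∈ T.C
    · obtain ⟨he, hq⟩ := h1 hyC
      refine Or.inl ⟨he, hq, T.exists_sq_neg_one hζ h3W ?_⟩
      -- in `C` the trace excludes `±1`, so `y₁` is `y` or `y ^ 3`
      rcases T.mem_C_iff.mp hyC with e | e | e | e
      · exact absurd (e ▸ hyI.2) (by rw [Matrix.trace_one]; decide)
      · exact absurd (e ▸ hyI.2) (by rw [Matrix.trace_neg, Matrix.trace_one]; decide)
      · rwa [← T.eq_of_coe (g := y) (h := T.y₁) (by rw [e, eL_y₁])]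
      · have : y ^ 3 = T.y₁ := T.eq_of_coe (by
          rw [pow_succ, pow_two, map_mul, Units.val_mul,
            T.neg_of_isI hyI, e, neg_mul_neg, one_mul, eL_y₁])
        rw [← this]; exact hy.inert_pow 3
    · obtain ⟨he, hq⟩ := h2 hyC
      exact Or.inr ⟨he, hq, T.thetaU_neg_one hζ h3 he⟩
  exists_ram := by
    -- some place above 3 ramifies
    obtain ⟨u, h3, he⟩ := T.exists_ramified3 hζ
    exact ⟨u, T.mem_S3.mpr h3, he⟩
  prod x := by rw [← gH_eq]; exact T.prod_thetaU hζ x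
  lam_split _ h hs := (T.th_cases (T.unram_under h)).2 hs
  lam_inert _ h hs := ((T.th_cases (T.unram_under h)).1 hs).2

end QTower

end Gal

end Fermat.LT.Theta
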