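import Fermat.Agent.LT.Theta.Data

/-!
# The Galois part of the data of the descent

`thetaStatement_of_form` reduces the theta statement to the existence of a form for every choice
of character data.
-/

set_option autoImplicit false

noncomputable section

open NumberField Fermat.CFT

namespace Fermat.LT.Theta.Gal

local notation "ℚbar" => AlgebraicClosure ℚ

/-- **The Galois part of the theta statement**: it follows from the existence of a form for every
character datum. -/
theorem thetaStatement_of_form (K L : Type) [Field K] [NumberField K] [Field L] [NumberField L]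
    [Algebra K L]
    (hform : ∀ (M : Type) [Field M] [NumberField M] [Algebra L M] [IsTotallyComplex L]
      (σ : M ≃ₐ[L] M) (lam : Pl L → ℝ), HData σ lam →
        ∃ Φ, IsForm (s3 L) (s3 L) lam Φ) : ThetaStatement K L := by
  intro ρ ι hρ hF
  have := finite_nField hρ.continuous
  have := isGalois_nField hρ.continuous
  let _ : Algebra L (nField ρ) := (lIncl hF).toAlgebra
  let _ : Algebra K (nField ρ) := ((lIncl hF).comp (algebraMap K L)).toAlgebra
  have : IsScalarTower K L (nField ρ) := IsScalarTower.of_algebraMap_eq' rfl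
  obtain ⟨T, hTe⟩ := qTower hF hρ (RingHom.algebraMap_toAlgebra _)
  obtain ⟨ζ, hζ⟩ := exists_zeta hF hρ.det
  have htc := totallyComplex_of_zeta hζ
  have : IsTotallyComplex L := isTotallyComplex_of_algebra (F := K) (K := L)
  obtain ⟨v3, hv3, hnorm, huniq⟩ := exists_v3 T.finrank_K hζ
  have hover : placesOver K L v3 = s3 L := by
    ext w
    constructor
    · intro h
      have h3 : (3 : 𝓞 K) ∈ (plUnder K w).asIdeal := by
        rw [asIdeal_plUnder]; exact h.symm ▸ hv3
      exact three_mem_plUnder.mp h3
    · intro h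
      change w.asIdeal.under (𝓞 K) = v3.asIdeal
      rw [← asIdeal_plUnder, huniq _ (three_mem_plUnder.mpr h)]
  refine ⟨v3, T.frobLam, ?_, ?_⟩
  · -- the eigenvalues are those of `ρ`
    intro w h3 A hA σ hσ hfrob
    exact T.frobLam_eq_of_frobenius hF hTe (RingHom.algebraMap_toAlgebra _) (T.unram h3) hA hσ hfrob
  · refine ⟨T.isGalois_QL, htc, T.finrank_KL, hnorm, fun g => ?_, ?_, fun v hv => huniq v hv,
      ⟨ζ, hζ⟩, ?_, fun g w hw => T.frobLam_mapPlace g (T.unram (by rwa [hover] at hw)), ?_⟩
    · -- `v3` is fixed
      refine huniq _ ?_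
      change ((RingOfIntegers.mapRingEquiv g).symm : 𝓞 K →+* 𝓞 K) 3 ∈ v3.asIdeal
      rwa [map_ofNat]
    · rw [hover]; exact T.ncard_over3 hζ
    · -- non-vanishing: otherwise take `ℓ` off the finitely many norms with trivial Frobenius; the
      -- places of degree one under it have eigenvalue `2√ℓ`
      intro hfin
      obtain ⟨ℓ, hℓ, hℓT, A, hA, -, φ, hφ, hgen⟩ := exists_frobenius_map_zpowers_eq ρ
        (isOpen_ker hρ.continuous) 1 (hfin.toFinset.image resCard ∪ {3})
      rw [map_one, Subgroup.zpowers_one_eq_bot, Subgroup.zpowers_eq_bot] at hgen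
      have hr1 : AlgEquiv.restrictNormalHom (nField ρ) φ = 1 := by
        rw [← MonoidHom.mem_ker, ker_restrict hρ.continuous, MonoidHom.mem_ker, hgen]
      have hne : primeBelow (nField ρ) A ≠ ⊥ :=
        ne_bot_of_natCast_mem hℓ (natCast_mem_primeBelow _ hA)
      -- the place `W` over `ℓ`, and `w` of `L` under it, have residue field `𝔽_ℓ`
      set W : Pl (nField ρ) := ⟨primeBelow (nField ρ) A, inferInstance, hne⟩
      have hW : ∀ x : 𝓞 (nField ρ), x - x ^ ℓ ∈ W.asIdeal := fun x => by
        have h := (smul_sub_pow_mem hφ) (algebraMap (𝓞 (nField ρ)) (𝓞 ℚbar) x)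
        rw [← algebraMap_restrict_smul, hr1, one_smul, ← map_pow, ← map_sub] at h
        exact h
      set w := plUnder L W with hw
      have hmw : (ℓ : 𝓞 L) ∈ w.asIdeal := by
        rw [hw, asIdeal_plUnder, Ideal.under, Ideal.mem_comap, map_natCast]
        exact natCast_mem_primeBelow _ hA
      have hqw : resCard w = ℓ := resCard_eq_of_pow hℓ hmw fun x => by
        rw [hw, asIdeal_plUnder, Ideal.under, Ideal.mem_comap, map_sub, map_pow, ← neg_sub,
          neg_mem_iff]
        exact hW _
      have hqv : resCard (plUnder K w) = ℓ := resCard_eq_of_pow hℓ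
        (by rw [asIdeal_plUnder, Ideal.under, Ideal.mem_comap, map_natCast]; exact hmw) fun x => by
        rw [asIdeal_plUnder, Ideal.under, Ideal.mem_comap, map_sub, map_pow, hw, asIdeal_plUnder,
          Ideal.under, Ideal.mem_comap, map_sub, map_pow, ← neg_sub, neg_mem_iff]
        exact hW _
      simp only [Finset.mem_union, Finset.mem_singleton, Finset.mem_image, not_or, not_exists,
        not_and] at hℓT
      have h3w : (3 : 𝓞 L) ∉ w.asIdeal := fun h => hℓT.2 (hqw.symm.trans (T.resCard_L hζ h))
      -- so the eigenvalue at `w` is `2√ℓ`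
      refine hℓT.1 (plUnder K w) (hfin.mem_toFinset.mpr
        ⟨w, rfl, hqw.trans hqv.symm, ?_⟩) hqv
      have hc : Congr (1 : (nField ρ) ≃ₐ[L] (nField ρ)) W (resCard w) := fun x => by
        rw [one_smul, hqw]; exact hW x
      rw [T.frobLam_eq (T.unram h3w) rfl hc, map_one, liftTr_one, hqw]
      have : (0 : ℝ) < ℓ := by exact_mod_cast hℓ.pos
      have := Real.sqrt_pos.mpr this
      push_cast
      positivity
    · rw [hover]
      exact hform T.Mf T.σ T.frobLam (T.hData hζ)

end Fermat.LT.Theta.Gal
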