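import Fermat.Agent.LT.Targets

/-!
# The quaternion group inside `GL₂(𝔽₃)`

`generate` and `conjugate`: two independent elements of order four generate it, and those elements
are conjugate; `liftTr` takes `2`, `-2` and `0` on it.
-/

set_option autoImplicit false

namespace Fermat.LT.Theta.Gal

local notation "G₃" => GL (Fin 2) (ZMod 3)
local notation "M₃" => Matrix (Fin 2) (Fin 2) (ZMod 3)

/-- Trace `0`, determinant `1`: the six elements of order four of `Q₈`. -/
def IsI (X : M₃) : Prop := X.det = 1 ∧ X.trace = 0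

/-- The matrix of quadruples. -/
def mat (a b c d : ZMod 3) : M₃ := !![a, b; c, d]

/-- To prove a property of all matrices it suffices to prove it on quadruples. -/
lemma forall_mat {P : M₃ → Prop} (h : ∀ a b c d : ZMod 3, P (mat a b c d)) (X : M₃) : P X := by
  have := h (X 0 0) (X 0 1) (X 1 0) (X 1 1)
  rwa [mat, ← Matrix.eta_fin_two X] at this

/-- The product of two quadruples. -/
lemma mat_mul (a b c d a' b' c' d' : ZMod 3) :
    mat a b c d * mat a' b' c' d'
      = mat (a * a' + b * c') (a * b' + b * d') (c * a' + d * c') (c * b' + d * d') := by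
  simp [mat]

/-- Equality of quadruples is equality of entries. -/
lemma mat_inj {a b c d a' b' c' d' : ZMod 3} :
    mat a b c d = mat a' b' c' d' ↔ a = a' ∧ b = b' ∧ c = c' ∧ d = d' := by
  refine ⟨fun h => ⟨congrFun (congrFun h 0) 0, congrFun (congrFun h 0) 1, congrFun (congrFun h 1) 0,
    congrFun (congrFun h 1) 1⟩, fun ⟨h1, h2, h3, h4⟩ => by rw [h1, h2, h3, h4]⟩

/-- The identity as a quadruple. -/
lemma mat_one : (1 : M₃) = mat 1 0 0 1 := by simp [mat, Matrix.one_fin_two]

/-- The negative of a quadruple. -/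
lemma mat_neg (a b c d : ZMod 3) : -mat a b c d = mat (-a) (-b) (-c) (-d) := by simp [mat]

/-- The determinant of a quadruple. -/
lemma det_mat (a b c d : ZMod 3) : (mat a b c d).det = a * d - b * c :=
  Matrix.det_fin_two_of _ _ _ _

/-- The trace of a quadruple. -/
lemma trace_mat (a b c d : ZMod 3) : (mat a b c d).trace = a + d := Matrix.trace_fin_two_of _ _ _ _

/-- `IsI` on quadruples. -/
lemma isI_mat (a b c d : ZMod 3) : IsI (mat a b c d) ↔ a * d - b * c = 1 ∧ a + d = 0 := by
  rw [IsI, det_mat, trace_mat]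

/-- The elements of trace `0` and determinant `1` square to `-1`. -/
lemma isI_mul_self {X : M₃} (h : IsI X) : X * X = -1 := by
  revert h
  refine forall_mat (P := fun X => IsI X → X * X = -1) ?_ X
  intro a b c d
  simp only [isI_mat, mat_mul, mat_one, mat_neg, mat_inj]
  revert a b c d
  decide

/-- The square of an element of order `8`. -/
lemma order8 (X : M₃) : X * X * (X * X) ≠ 1 → (X * X * (X * X)) * (X * X * (X * X)) = 1 →
    X.det = -1 ∧ IsI (X * X) := by
  refine forall_mat (P := fun X => X * X * (X * X) ≠ 1 →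
    (X * X * (X * X)) * (X * X * (X * X)) = 1 → X.det = -1 ∧ IsI (X * X)) ?_ X
  intro a b c d
  simp only [isI_mat, mat_mul, mat_one, det_mat, Ne, mat_inj]
  revert a b c d
  decide

set_option synthInstance.maxSize 1024 in -- headroom for the `Decidable` instance of the statement
/-- Elements of `SL₂ ∖ Q₈` normalise no cyclic subgroup of order four of `Q₈`. -/
lemma not_normalise {X Y : M₃} (hX : IsI X) (hY : Y.det = 1) (hYI : ¬ IsI Y) (hY1 : Y ≠ 1)
    (hY2 : Y ≠ -1) : Y * X ≠ X * Y ∧ Y * X ≠ -(X * Y) := by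
  revert hX hY hYI hY1 hY2
  refine forall_mat (P := fun X => IsI X → Y.det = 1 → ¬ IsI Y → Y ≠ 1 → Y ≠ -1 →
    Y * X ≠ X * Y ∧ Y * X ≠ -(X * Y)) (fun a b c d => ?_) X
  refine forall_mat (P := fun Y => IsI (mat a b c d) → Y.det = 1 → ¬ IsI Y → Y ≠ 1 → Y ≠ -1 →
    Y * mat a b c d ≠ mat a b c d * Y ∧ Y * mat a b c d ≠ -(mat a b c d * Y)) ?_ Y
  intro a' b' c' d' hX
  simp only [isI_mat, mat_mul, mat_one, mat_neg, det_mat, Ne, mat_inj] at hX ⊢
  revert hX a' b' c' d'
  revert a b c d
  decide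

set_option synthInstance.maxSize 256 in -- headroom for the `Decidable` instance of the statement
/-- Two elements of order four anticommute unless they are equal up to sign. -/
lemma anticomm {X Z : M₃} (hX : IsI X) (hZ : IsI Z) (h1 : Z ≠ X) (h2 : Z ≠ -X) :
    Z * X = -(X * Z) := by
  revert hX hZ h1 h2
  refine forall_mat (P := fun X => IsI X → IsI Z → Z ≠ X → Z ≠ -X → Z * X = -(X * Z))
    (fun a b c d => ?_) X
  refine forall_mat (P := fun Z => IsI (mat a b c d) → IsI Z → Z ≠ mat a b c d → Z ≠ -mat a b c d →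
    Z * mat a b c d = -(mat a b c d * Z)) ?_ Z
  intro a' b' c' d' hX
  simp only [isI_mat, mat_mul, mat_neg, Ne, mat_inj] at hX ⊢
  revert hX a' b' c' d'
  revert a b c d
  decide

/-- `Q₈` as a predicate on matrices. -/
def IsQ (X : M₃) : Prop := X = 1 ∨ X = -1 ∨ IsI X

/-- The quaternion subgroup is described by its matrix predicate. -/
lemma inQ8_iff (g : G₃) : InQ8 g ↔ IsQ (g : M₃) := by
  rw [InQ8, IsQ, IsI]
  constructor
  · rintro ⟨hd, h | h | h⟩
    · exact Or.inr (Or.inr ⟨hd, h⟩)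
    · exact Or.inl h
    · exact Or.inr (Or.inl h)
  · rintro (h | h | ⟨hd, h⟩)
    · exact ⟨by simp [h], Or.inr (Or.inl h)⟩
    · exact ⟨by simp [h, Matrix.det_fin_two], Or.inr (Or.inr h)⟩
    · exact ⟨hd, Or.inl h⟩

set_option maxRecDepth 1024 in -- headroom for `decide`
set_option synthInstance.maxSize 512 in -- headroom for the `Decidable` instance of the statement
/-- Two independent elements of order four generate `Q₈`. -/
lemma generate {X Z Q : M₃} (hX : IsI X) (hZ : IsI Z) (h1 : Z ≠ X) (h2 : Z ≠ -X) (hQ : IsI Q) :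
    Q = X ∨ Q = -X ∨ Q = Z ∨ Q = -Z ∨ Q = X * Z ∨ Q = -(X * Z) := by
  revert hX hZ h1 h2 hQ
  refine forall_mat (P := fun X => IsI X → IsI Z → Z ≠ X → Z ≠ -X → IsI Q →
    Q = X ∨ Q = -X ∨ Q = Z ∨ Q = -Z ∨ Q = X * Z ∨ Q = -(X * Z)) (fun a b c d => ?_) X
  refine forall_mat (P := fun Z => IsI (mat a b c d) → IsI Z → Z ≠ mat a b c d →
    Z ≠ -mat a b c d → IsI Q → Q = mat a b c d ∨ Q = -mat a b c d ∨ Q = Z ∨ Q = -Z ∨
      Q = mat a b c d * Z ∨ Q = -(mat a b c d * Z)) (fun a' b' c' d' => ?_) Z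
  intro hX hZ
  refine forall_mat (P := fun Q => mat a' b' c' d' ≠ mat a b c d →
    mat a' b' c' d' ≠ -mat a b c d → IsI Q → Q = mat a b c d ∨ Q = -mat a b c d ∨
      Q = mat a' b' c' d' ∨ Q = -mat a' b' c' d' ∨ Q = mat a b c d * mat a' b' c' d' ∨
      Q = -(mat a b c d * mat a' b' c' d')) (fun x y z w => ?_) Q
  simp only [isI_mat, mat_mul, mat_neg, Ne, mat_inj] at hX hZ ⊢
  revert x y z w
  revert hZ a' b' c' d'
  revert hX a b c d
  decide

set_option synthInstance.maxSize 256 in -- headroom for the `Decidable` instance of the statement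
set_option maxRecDepth 1024 in -- headroom for `decide`
/-- The elements of order four are conjugate. -/
lemma conjugate {X Z : M₃} (hX : IsI X) (hZ : IsI Z) :
    ∃ Y : G₃, (Y : M₃) * X = Z * (Y : M₃) := by
  have : ∃ a b c d : ZMod 3, (mat a b c d).det ≠ 0 ∧ mat a b c d * X = Z * mat a b c d := by
    revert hX hZ
    refine forall_mat (P := fun X => IsI X → IsI Z → ∃ a b c d : ZMod 3,
      (mat a b c d).det ≠ 0 ∧ mat a b c d * X = Z * mat a b c d) (fun a b c d => ?_) X
    refine forall_mat (P := fun Z => IsI (mat a b c d) → IsI Z → ∃ x y z w : ZMod 3,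
      (mat x y z w).det ≠ 0 ∧ mat x y z w * mat a b c d = Z * mat x y z w) ?_ Z
    intro a' b' c' d' hX
    simp only [isI_mat, mat_mul, det_mat, mat_inj] at hX ⊢
    revert hX a' b' c' d'
    revert a b c d
    decide
  obtain ⟨a, b, c, d, h0, h⟩ := this
  exact ⟨Matrix.GeneralLinearGroup.mkOfDetNeZero _ h0, h⟩

/-- `IsI` is stable under negation. -/
lemma isI_neg {X : M₃} (h : IsI X) : IsI (-X) := by
  refine ⟨?_, by rw [Matrix.trace_neg, h.2, neg_zero]⟩
  rw [Matrix.det_neg, h.1]; simp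

/-- `IsI` is stable under conjugation. -/
lemma isI_conj {X : M₃} (h : IsI X) (Y : G₃) : IsI ((Y : M₃) * X * ((Y⁻¹ : G₃) : M₃)) :=
  ⟨by rw [Matrix.det_units_conj, h.1], by rw [Matrix.trace_units_conj, h.2]⟩

/-- `Q₈` is normal in `GL₂(𝔽₃)`. -/
lemma isQ_conj {X : M₃} (h : IsQ X) (Y : G₃) : IsQ ((Y : M₃) * X * ((Y⁻¹ : G₃) : M₃)) := by
  rcases h with rfl | rfl | h
  · left; rw [mul_one, Units.mul_inv]
  · right; left; rw [mul_neg, mul_one, neg_mul, Units.mul_inv]
  · exact Or.inr (Or.inr (isI_conj h Y))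

/-- The trace of the lift is a class function. -/
lemma liftTr_conj (g Y : G₃) : liftTr (Y * g * Y⁻¹) = liftTr g := by
  have h : ∀ A : M₃, ((Y : M₃) * (g : M₃) * ((Y⁻¹ : G₃) : M₃) = A ↔
      (g : M₃) = ((Y⁻¹ : G₃) : M₃) * A * (Y : M₃)) := fun A => by
    constructor
    · rintro rfl; simp [Matrix.mul_assoc]
    · intro e; rw [e]; simp [Matrix.mul_assoc]
  have h1 := h 1
  have h2 := h (-1)
  simp only [mul_one, mul_neg, neg_mul, Units.inv_mul] at h1 h2
  simp only [liftTr, Units.val_mul, Matrix.trace_units_conj, h1, h2]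

/-- `-1 ≠ 1` in `M₂(𝔽₃)`. -/
lemma neg_one_ne_one : (-1 : M₃) ≠ 1 := by rw [mat_one, mat_neg, Ne, mat_inj]; decide

/-- The lifted trace vanishes on elements of order four. -/
lemma liftTr_isI {g : G₃} (h : IsI (g : M₃)) : liftTr g = 0 := by
  have h1 : (g : M₃) ≠ 1 := fun e => by
    have := h.2; rw [e, Matrix.trace_one] at this; exact absurd this (by decide)
  have h2 : (g : M₃) ≠ -1 := fun e => by
    have := h.2; rw [e, Matrix.trace_neg, Matrix.trace_one] at this; exact absurd this (by decide)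
  have h3 : (0 : ZMod 3) ≠ 1 ∧ (0 : ZMod 3) ≠ 2 := by decide
  simp [liftTr, h1, h2, h.2, h3.2]

/-- The lifted trace of `1` is `2`. -/
lemma liftTr_one : liftTr (1 : G₃) = 2 := by simp [liftTr]

/-- The lifted trace of `-1` is `-2`. -/
lemma liftTr_neg {g : G₃} (h : (g : M₃) = -1) : liftTr g = -2 := by
  simp [liftTr, h, neg_one_ne_one]

end Fermat.LT.Theta.Gal
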