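import Fermat.Agent.LT.Theta.Gal.Inertia
import Fermat.Agent.LT.Theta.SymbolArt

/-!
# Norm symbols at places over `3`, and Artin maps of elements of the ground field

`mem_lnorms_of_one` and `neg_one_not_mem_lnorms` give the norms over `3`;
`finprod_pow_ord_algebraMap` the Artin map of an element of the ground field.
-/

set_option autoImplicit false
set_option linter.unusedSectionVars false

noncomputable section

open NumberField Fermat.CFT
open scoped Pointwise Classical

namespace Fermat.LT.Theta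

variable {K : Type} [Field K] [NumberField K]

/-- `3` has positive order at places over `3`. -/
lemma ord_three_pos {v : Pl K} (h3 : (3 : 𝓞 K) ∈ v.asIdeal) : 1 ≤ CFT.ord v ((3 : 𝓞 K) : K) :=
  (ord_algebraMap_pos_iff v (by norm_num)).mpr h3

/-- Cubing raises the level. -/
lemma closeOne_pow_three {v : Pl K} (h3 : (3 : 𝓞 K) ∈ v.asIdeal) {k : ℕ} (hk : 1 ≤ k) {z : K}
    (h : CloseOne v k z) : CloseOne v (k + 1 : ℕ) (z ^ 3) := by
  rcases eq_or_ne (z ^ 3) 1 with e | e
  · exact Or.inl e
  rcases h with rfl | h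
  · simp at e
  refine Or.inr ?_
  set t := z - 1 with ht
  have h3K : 1 ≤ CFT.ord v (3 : K) := by
    have := ord_three_pos h3
    rwa [show ((3 : 𝓞 K) : K) = 3 from map_ofNat (algebraMap (𝓞 K) K) 3] at this
  have hz : z ^ 3 - 1 = t * ((3 : K) * (1 + t) + t ^ 2) := by
    rw [show z = 1 + t by rw [ht]; ring]
    ring
  have ht0 : t ≠ 0 := fun h0 => e (by rw [← sub_eq_zero, hz, h0, zero_mul])
  have hs0 : (3 : K) * (1 + t) + t ^ 2 ≠ 0 := fun h0 =>
    e (by rw [← sub_eq_zero, hz, h0, mul_zero])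
  rw [hz, CFT.ord_mul v ht0 hs0]
  have h1 : 1 ≤ CFT.ord v ((3 : K) * (1 + t) + t ^ 2) := by
    refine CFT.ord_add_ge v hs0 ?_ (Or.inr ?_)
    · rcases eq_or_ne (1 + t) 0 with h0 | h0
      · exact Or.inl (by rw [h0, mul_zero])
      refine Or.inr ?_
      rw [CFT.ord_mul v (by norm_num) h0]
      have h1t : 0 ≤ CFT.ord v (1 + t) :=
        CFT.ord_add_ge v h0 (Or.inr (by simp)) (Or.inr (le_trans (by positivity) h))
      omega
    · rw [CFT.ord_pow]; push_cast; omega
  push_cast
  omega

/-- Over `3`, cubing `n` times moves a principal unit to level `n + 1`. -/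
lemma closeOne_pow_three_pow {v : Pl K} (h3 : (3 : 𝓞 K) ∈ v.asIdeal) {z : K}
    (h : CloseOne v 1 z) : ∀ n : ℕ, CloseOne v (n + 1 : ℕ) (z ^ 3 ^ n)
  | 0 => by simpa using h
  | n + 1 => by
    rw [pow_succ, pow_mul]
    exact closeOne_pow_three h3 n.succ_pos (closeOne_pow_three_pow h3 h n)

/-- Squares are local norms. -/
lemma sq_mem_lnorms {F : Type} [Field F] [NumberField F] [Algebra K F] [IsGalois K F]
    (hF : Module.finrank K F = 2) (v : Pl K) (x : Kˣ) : x ^ 2 ∈ lnorms F v := by
  refine Subgroup.mem_sup_left ⟨Units.map (algebraMap K F : K →* F) x, Units.ext ?_⟩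
  simp [Algebra.norm_algebraMap, hF]

/-- Over `3`, the principal units are norms. -/
lemma mem_lnorms_of_one {F : Type} [Field F] [NumberField F] [Algebra K F] [IsGalois K F]
    (hF : Module.finrank K F = 2) {v : Pl K} (h3 : (3 : 𝓞 K) ∈ v.asIdeal) {x : Kˣ}
    (h : CloseOne v 1 (x : K)) : x ∈ lnorms F v := by
  set n := localLevel 2 (-1 : K) v
  have h1 : x ^ 3 ^ n ∈ lnorms F v := mem_lnorms_of_closeOne (by
    rw [Units.val_pow_eq_pow_val]
    exact closeOne_mono (closeOne_pow_three_pow h3 h n) (by push_cast; omega))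
  obtain ⟨m, hm⟩ : Odd (3 ^ n) := (Nat.odd_iff.mpr rfl).pow
  rw [hm, pow_succ, pow_mul] at h1
  exact (Subgroup.mul_mem_cancel_left _ (pow_mem (sq_mem_lnorms hF v x) m)).mp h1

section Quadratic

variable [IsTotallyComplex K] {F : Type} [Field F] [NumberField F] [Algebra K F] [IsGalois K F]
  (hF : Module.finrank K F = 2) {σ : F ≃ₐ[K] F} (hσ : σ ≠ 1)

include hF hσ

/-- A prime with nontrivial ramification index is fixed by the conjugation. -/
lemma smul_eq_of_plRamIdx {w : Pl F} (he : plRamIdx K w ≠ 1) : σ • w = w := by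
  obtain ⟨h1, -⟩ := stabilizer_card_eq (K := K) w
  have hle : Nat.card (MulAction.stabilizer (F ≃ₐ[K] F) w) ≠ 1 := fun h => he
    (Nat.eq_one_of_mul_eq_one_right (h ▸ h1).symm)
  obtain ⟨⟨g, hg⟩, hg1'⟩ := Subgroup.ne_bot_iff_exists_ne_one.mp
    (fun h => hle (by rw [h, Subgroup.card_bot]) : MulAction.stabilizer (F ≃ₐ[K] F) w ≠ ⊥)
  have hg1 : g ≠ 1 := fun h => hg1' (by subst h; rfl)
  obtain ⟨i, hi, rfl⟩ := exists_eq_generator_pow hF hσ g
  interval_cases i
  · exact absurd (pow_zero σ) hg1
  · rwa [pow_one] at hg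

/-- A ramified place does not split. -/
lemma isNonsplit_of_plRamIdx {w : Pl F} (he : plRamIdx K w ≠ 1) : IsNonsplit σ (plUnder K w) :=
  IsNonsplit.of_smul_eq hF hσ (smul_eq_of_plRamIdx hF hσ he)

/-- At a ramified place the conjugation lies in inertia. -/
lemma congr_one_of_plRamIdx {w : Pl F} (he : plRamIdx K w ≠ 1) : Congr σ w 1 := by
  by_contra h
  refine he (plRamIdx_eq_one_of_inertia w fun g hg => ?_)
  obtain ⟨i, hi, rfl⟩ := exists_eq_generator_pow hF hσ g
  interval_cases i
  · exact pow_zero σ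
  · rw [pow_one] at hg; exact absurd (Congr.one_iff.mpr hg) h

/-- At a ramified place there is a unit which is not a norm. -/
lemma exists_unit_not_norm {w : Pl F} (he : plRamIdx K w = 2) :
    ∃ y : Kˣ, CFT.ord (plUnder K w) (y : K) = 0 ∧ y ∉ lnorms F (plUnder K w) := by
  by_contra hno
  push Not at hno
  have hns : IsNonsplit σ (plUnder K w) := isNonsplit_of_plRamIdx hF hσ (by omega)
  obtain ⟨x, hx⟩ := exists_not_mem_lnorms hF hσ hns
  obtain ⟨π, hπ0, hπ⟩ := CFT.exists_ord_eq_one w
  set Nπ : Kˣ := Units.map (Algebra.norm K : F →* K) (Units.mk0 π hπ0) with hNπ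
  have hN : CFT.ord (plUnder K w) (Nπ : K) = 1 := by
    have h := CFT.ord_algebraMap_eq w (Algebra.norm K π)
    rw [algebraMap_norm_eq_prod_pow hF hσ, show Finset.range 2 = {0, 1} by decide,
      Finset.prod_pair zero_ne_one, pow_zero, AlgEquiv.one_apply, pow_one,
      CFT.ord_mul _ hπ0 ((map_ne_zero σ).mpr hπ0), hπ, he] at h
    have hs : CFT.ord w (σ π) = 1 := by
      have h' := CFT.ord_smul σ w π
      rw [smul_eq_of_plRamIdx hF hσ (by omega), hπ] at h'
      exact h'
    rw [hs] at h
    rw [hNπ, Units.coe_map]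
    change CFT.ord _ (Algebra.norm K π) = 1
    push_cast at h
    omega
  have hNn : ∀ k : ℤ, Nπ ^ k ∈ lnorms F (plUnder K w) := fun k =>
    zpow_mem (Subgroup.mem_sup_left (MonoidHom.mem_range.mpr ⟨Units.mk0 π hπ0, rfl⟩) : Nπ ∈ lnorms F
      (plUnder K w)) k
  have h0 := hno (x / Nπ ^ CFT.ord (plUnder K w) (x : K)) (by
    rw [Units.val_div_eq_div_val, CFT.ord_div _ x.ne_zero (Units.ne_zero _),
      Units.val_zpow_eq_zpow_val, CFT.ord_zpow, hN]
    ring)
  exact hx (by simpa using mul_mem h0 (hNn (CFT.ord (plUnder K w) (x : K))))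

/-- `-1` is not a norm at a ramified place with three residues. -/
lemma neg_one_not_mem_lnorms {w : Pl F} (h3 : (3 : 𝓞 K) ∈ (plUnder K w).asIdeal)
    (he : plRamIdx K w = 2) (hq : resCard w = 3) : (-1 : Kˣ) ∉ lnorms F (plUnder K w) := by
  intro hmem
  set v := plUnder K w with hv
  obtain ⟨y, l, hl, hyl⟩ := mem_localNorms.mp hmem
  obtain ⟨s, hs⟩ :=
    (show ∃ s : Kˣ, CloseOne v (localLevel 2 (-1 : K) v) ((l : K) / (s : K) ^ 2) from hl)
  have h1 : CloseOne v 1 ((l : K) / (s : K) ^ 2) :=
    closeOne_mono hs (by have := localLevel_pos 2 (-1 : K) v; omega)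
  set t : F := (y : F) * algebraMap K F (s : K) with ht
  have ht0 : t ≠ 0 := mul_ne_zero y.ne_zero ((map_ne_zero _).mpr s.ne_zero)
  have hNt : Algebra.norm K t = Algebra.norm K (y : F) * (s : K) ^ 2 := by
    rw [ht, map_mul, Algebra.norm_algebraMap, hF]
  have hval : (-1 : K) / Algebra.norm K t = (l : K) / (s : K) ^ 2 := by
    have hy0 : Algebra.norm K (y : F) ≠ 0 := Algebra.norm_ne_zero_iff.mpr y.ne_zero
    rw [hNt]
    have := hyl
    rw [Units.val_neg, Units.val_one] at this
    rw [this]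
    field_simp
  have hst : σ • w = w := smul_eq_of_plRamIdx hF hσ (by omega)
  have hσt : CFT.ord w (σ t) = CFT.ord w t := by
    have h' := CFT.ord_smul σ w t
    rw [hst] at h'
    exact h'
  have htriv : algebraMap K F (Algebra.norm K t) = t * σ t := by
    rw [algebraMap_norm_eq_prod_pow hF hσ, show Finset.range 2 = {0, 1} by decide,
      Finset.prod_pair zero_ne_one, pow_zero, AlgEquiv.one_apply, pow_one]
  have hord : CFT.ord w t = 0 := by
    have hN0 := (CloseOne.ord_eq_zero Int.one_pos (hval ▸ h1))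
    rw [CFT.ord_div v (by norm_num) (Algebra.norm_ne_zero_iff.mpr ht0), CFT.ord_neg, CFT.ord_one,
      zero_sub, neg_eq_zero] at hN0
    have h := CFT.ord_algebraMap_eq w (Algebra.norm K t)
    rw [htriv, CFT.ord_mul w ht0 ((map_ne_zero σ).mpr ht0), hσt, ← hv, hN0] at h
    omega
  -- write the unit `t`, whose norm is near `-1`, as `a / b`
  obtain ⟨a, b, ha, hb, hab⟩ := exists_localUnit_eq_div w ⟨Units.mk0 t ht0, hord⟩
  have hab' : t * (b : F) = (a : F) := hab
  have hsq : ∀ c : 𝓞 F, c ∉ w.asIdeal → c * σ • c - 1 ∈ w.asIdeal := by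
    intro c hc
    have h2 := pow_card_sub_one_sub_one_mem hc
    rw [hq, show 3 - 1 = 2 from rfl] at h2
    have h4 := add_mem h2 (w.asIdeal.mul_mem_left c
      (Congr.one_iff.mp (congr_one_of_plRamIdx hF hσ (w := w) (by omega)) c))
    rw [show c * σ • c - 1 = (c ^ 2 - 1) + c * (σ • c - c) by ring]
    exact h4
  have hnum : a * σ • a + b * σ • b ∈ w.asIdeal := by
    rcases h1 with h | h
    · have e : algebraMap K F (Algebra.norm K t) = -1 := by
        rw [← hval, div_eq_one_iff_eq (Algebra.norm_ne_zero_iff.mpr ht0)] at h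
        rw [← h, map_neg, map_one]
      have : a * σ • a + b * σ • b = 0 := RingOfIntegers.ext (by
        change (a : F) * σ (a : F) + (b : F) * σ (b : F) = 0
        rw [← hab', map_mul]
        linear_combination (b : F) * σ (b : F) * (htriv.symm.trans e))
      rw [this]; exact zero_mem _
    · rcases eq_or_ne (a * σ • a + b * σ • b) 0 with h0 | h0
      · rw [h0]; exact zero_mem _
      rw [← ord_algebraMap_pos_iff w h0]
      have hK : (-1 : K) / Algebra.norm K t - 1 = -(1 + Algebra.norm K t) / Algebra.norm K t := by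
        have := (Algebra.norm_ne_zero_iff (R := K)).mpr ht0
        field_simp
        ring
      have hne : 1 + Algebra.norm K t ≠ 0 := fun hz => h0 (RingOfIntegers.ext (by
        change (a : F) * σ (a : F) + (b : F) * σ (b : F) = 0
        have := congrArg (algebraMap K F) hz
        rw [map_add, map_one, htriv, map_zero] at this
        rw [← hab', map_mul]
        linear_combination (b : F) * σ (b : F) * this))
      rw [← hval, hK, CFT.ord_div v (neg_ne_zero.mpr hne) (Algebra.norm_ne_zero_iff.mpr ht0),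
        CFT.ord_neg] at h
      have hNord : CFT.ord v (Algebra.norm K t) = 0 := by
        have h' := CFT.ord_algebraMap_eq w (Algebra.norm K t)
        rw [htriv, CFT.ord_mul w ht0 ((map_ne_zero σ).mpr ht0), hσt, hord, ← hv, he] at h'
        omega
      have hb0 : (b : F) ≠ 0 := fun h => hb (by
        rw [show b = 0 from RingOfIntegers.ext h]; exact zero_mem _)
      have e : ((a * σ • a + b * σ • b : 𝓞 F) : F)
          = (b : F) * σ (b : F) * algebraMap K F (1 + Algebra.norm K t) := by
        change (a : F) * σ (a : F) + (b : F) * σ (b : F) = _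
        rw [map_add, map_one, htriv, ← hab', map_mul]; ring
      rw [e, CFT.ord_mul w (mul_ne_zero hb0 ((map_ne_zero σ).mpr hb0)) ((map_ne_zero _).mpr hne),
        CFT.ord_mul w hb0 ((map_ne_zero σ).mpr hb0), CFT.ord_algebraMap_eq, ← hv, he]
      have := CFT.ord_algebraMap_nonneg w b
      have : 0 ≤ CFT.ord w (σ (b : F)) := CFT.ord_algebraMap_nonneg w (σ • b)
      omega
  have h3w : (3 : 𝓞 F) ∈ w.asIdeal := by
    rw [hv, asIdeal_plUnder, Ideal.under, Ideal.mem_comap, map_ofNat] at h3
    exact h3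
  -- `a σa + b σb`, `a σa - 1` and `b σb - 1` lie in the prime, hence so does `2`
  have h2 := sub_mem (sub_mem hnum (hsq a ha)) (hsq b hb)
  rw [show a * σ • a + b * σ • b - (a * σ • a - 1) - (b * σ • b - 1) = 2 by ring] at h2
  have := sub_mem h3w h2
  rw [show (3 : 𝓞 F) - 2 = 1 by norm_num] at this
  exact w.isPrime.ne_top ((Ideal.eq_top_iff_one _).mpr this)

/-- The Artin map of an element of the ground field, for a function inverted by `σ`. -/
theorem finprod_pow_ord_algebraMap {A : Type*} [CommGroup A] (f : Pl F → A) {T : Set (Pl K)}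
    (hT : ramPl F ⊆ T) (hfσ : ∀ w, plUnder K w ∉ T → f (σ • w) = (f w)⁻¹) (ε : A)
    (hε : ε * ε = 1) (hfε : ∀ w, plUnder K w ∉ T → σ • w = w → f w = ε) (x : Kˣ) :
    ∏ᶠ w : Pl F, (if plUnder K w ∈ T then 1 else f w ^ CFT.ord w (algebraMap K F (x : K)))
      = ε ^ (nonNorm σ x \ T).ncard := by
  set S := ((CFT.finite_ord_ne_zero (x : K)).sdiff (t := T)).toFinset with hS
  have hSmem : ∀ v, v ∈ S ↔ CFT.ord v (x : K) ≠ 0 ∧ v ∉ T := fun v => by
    rw [hS, Set.Finite.mem_toFinset]; rfl
  have hord : ∀ w : Pl F, plUnder K w ∉ T →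
      CFT.ord w (algebraMap K F (x : K)) = CFT.ord (plUnder K w) (x : K) := fun w hw => by
    rw [CFT.ord_algebraMap_eq, plRamIdx_eq_one_of_not_ram (fun h => hw (hT h)) rfl, Nat.cast_one,
      one_mul]
  rw [finprod_eq_prod_of_mulSupport_subset (s := plAbove F S) _ (fun w hw => by
      rw [Finset.mem_coe, mem_plAbove, hSmem]
      by_contra hc
      refine hw ?_
      by_cases hwT : plUnder K w ∈ T
      · simp [hwT]
      · simp only [if_neg hwT, hord w hwT]
        rw [not_and_or, not_not] at hc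
        rw [hc.resolve_right (not_not.mpr hwT), zpow_zero]),
    ← Finset.prod_fiberwise_of_maps_to (g := plUnder K) (t := S) fun w hw => mem_plAbove.mp hw]
  have hfin : (nonNorm σ x \ T).Finite := (nonNorm_finite hF hσ x).subset Set.sdiff_subset
  -- the product over the places above one place of `K`
  have hterm : ∀ v ∈ S, ∏ w ∈ plAbove F S with plUnder K w = v,
      (if plUnder K w ∈ T then 1 else f w ^ CFT.ord w (algebraMap K F (x : K)))
      = if v ∈ nonNorm σ x then ε else 1 := by
    intro v hv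
    obtain ⟨-, hvT⟩ := (hSmem v).mp hv
    obtain ⟨w, rfl⟩ := CFT.exists_plUnder_eq (F := F) v
    have hram : plUnder K w ∉ ramPl F := fun h => hvT (hT h)
    have hset : ({w' ∈ plAbove F S | plUnder K w' = plUnder K w} : Finset (Pl F)) = {w, σ • w} := by
      ext w'
      simp only [Finset.mem_filter, mem_plAbove, Finset.mem_insert, Finset.mem_singleton]
      constructor
      · rintro ⟨-, h⟩
        obtain ⟨i, hi, rfl⟩ := (plUnder_eq_iff hF hσ w w').mp h.symm
        interval_cases i
        · exact Or.inl (by rw [pow_zero, one_smul])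
        · exact Or.inr (by rw [pow_one])
      · rintro (rfl | rfl)
        · exact ⟨hv, rfl⟩
        · exact ⟨by rw [plUnder_smul]; exact hv, plUnder_smul σ w⟩
    rw [hset]
    by_cases hsp : σ • w = w
    · have hns : IsNonsplit σ (plUnder K w) := IsNonsplit.of_smul_eq hF hσ hsp
      rw [hsp, Finset.pair_eq_singleton, Finset.prod_singleton, if_neg hvT, hord w hvT,
        hfε w hvT hsp]
      have heven := mem_lnorms_iff_even hF hσ hns hram x
      rcases Int.even_or_odd (CFT.ord (plUnder K w) (x : K)) with he | ho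
      · obtain ⟨k, hk⟩ := he
        rw [if_neg fun h => h.2 (heven.mpr ⟨k, hk⟩), hk, zpow_add, ← mul_zpow, hε, one_zpow]
      · obtain ⟨k, hk⟩ := ho
        rw [if_pos ⟨hns, fun h => (Int.not_even_iff_odd.mpr ⟨k, hk⟩) (heven.mp h)⟩,
          hk, zpow_add_one, two_mul, zpow_add, ← mul_zpow, hε, one_zpow, one_mul]
    · rw [Finset.prod_pair (Ne.symm hsp), plUnder_smul, if_neg hvT, if_neg hvT, hord w hvT,
        hord (σ • w) (by rw [plUnder_smul]; exact hvT), plUnder_smul, hfσ w hvT, inv_zpow,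
        mul_inv_cancel, if_neg fun h => hsp (h.1 w rfl)]
  rw [Finset.prod_congr rfl hterm, Finset.prod_ite, Finset.prod_const,
    Finset.prod_const_one, mul_one, Set.ncard_eq_toFinset_card _ hfin]
  congr 1
  -- count the places contributing `ε`
  refine congrArg Finset.card (Finset.ext fun v => ?_)
  rw [Finset.mem_filter, hSmem, Set.Finite.mem_toFinset, Set.mem_sdiff]
  constructor
  · rintro ⟨⟨-, h2⟩, h3⟩; exact ⟨h3, h2⟩
  · rintro ⟨h1, h2⟩
    refine ⟨⟨fun h0 =>
      h1.2 ((mem_lnorms_iff_even hF hσ h1.1 (fun h => h2 (hT h)) x).mpr ?_), h2⟩, h1⟩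
    rw [h0]; exact Even.zero

end Quadratic

end Fermat.LT.Theta
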