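import Fermat.Agent.LT.Theta.Gal.Over3
import Fermat.Agent.LT.Theta.Gal.Local3

/-!
# Frobenius elements at unramified places

`Unram` is the condition; `frobLam_eq_of_frobenius` reads the eigenvalue from any Frobenius of `ρ`
fixing `L`.
-/

set_option autoImplicit false

noncomputable section

open NumberField IsDedekindDomain Fermat.CFT
open scoped Pointwise Classical

namespace Fermat.LT.Theta.Gal

/-- `w` is unramified in `N`. -/
def Unram (N : Type) [Field N] [NumberField N] {L : Type} [Field L] [NumberField L] [Algebra L N]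
    (w : Pl L) : Prop :=
  ∀ W : Pl N, plUnder L W = w → plRamIdx L W = 1

section Lift

variable {L N : Type} [Field L] [NumberField L] [Field N] [NumberField N] [Algebra L N]

/-- `mapPlace` is the action of the automorphism. -/
lemma mapPlace_eq_smul (g : L ≃+* L) (w : Pl L) : Fermat.LT.mapPlace g w =
    (AlgEquiv.ofRingEquiv (f := g) fun r => by simp : L ≃ₐ[ℚ] L) • w := by
  refine HeightOneSpectrum.ext (SetLike.ext fun x => ?_)
  rw [smul_asIdeal, Ideal.mem_pointwise_smul_iff_inv_smul_mem]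
  exact Iff.rfl

variable [IsGalois ℚ N] (a : L ≃ₐ[ℚ] L)

/-- A lift of an automorphism of `L` is compatible with the places below. -/
lemma plUnder_liftNormal_smul (W : Pl N) : plUnder L (a.liftNormal N • W) = a • plUnder L W := by
  refine HeightOneSpectrum.ext (SetLike.ext fun x => ?_)
  simp only [smul_asIdeal, asIdeal_plUnder, Ideal.under, Ideal.mem_comap,
    Ideal.mem_pointwise_smul_iff_inv_smul_mem]
  refine iff_of_eq (congrArg (· ∈ W.asIdeal) ?_)
  rw [inv_smul_eq_iff]
  refine RingOfIntegers.ext ?_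
  change algebraMap L N (x : L) = a.liftNormal N (algebraMap L N ((a⁻¹ : L ≃ₐ[ℚ] L) (x : L)))
  rw [AlgEquiv.liftNormal_commutes, ← AlgEquiv.mul_apply, mul_inv_cancel, AlgEquiv.one_apply]

/-- A lift of an automorphism of `L` keeps the ramification index over `L`. -/
lemma plRamIdx_liftNormal_smul (W : Pl N) :
    plRamIdx L (a.liftNormal N • W) = plRamIdx L W := by
  obtain ⟨π, -, hπ⟩ := CFT.exists_ord_eq_one (plUnder L W)
  have h := CFT.ord_algebraMap_eq (a.liftNormal N • W) (a • π)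
  rw [plUnder_liftNormal_smul, CFT.ord_smul,
    show algebraMap L N (a • π) = a.liftNormal N • algebraMap L N π from
      (a.liftNormal_commutes N π).symm, CFT.ord_smul, CFT.ord_algebraMap_eq, hπ, mul_one,
    mul_one] at h
  exact_mod_cast h.symm

/-- A conjugate of an unramified place is unramified. -/
lemma Unram.smul {w : Pl L} (h : Unram N w) : Unram N (a • w) := by
  intro W hW
  have e : plUnder L ((a.liftNormal N)⁻¹ • W) = w := smul_left_cancel a (by
    rw [← plUnder_liftNormal_smul, smul_inv_smul, hW])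
  rw [← smul_inv_smul (a.liftNormal N) W, plRamIdx_liftNormal_smul, h _ e]

/-- Being unramified is invariant under automorphisms of `L`. -/
lemma unram_mapPlace_iff (g : L ≃+* L) {w : Pl L} :
    Unram N (Fermat.LT.mapPlace g w) ↔ Unram N w := by
  rw [mapPlace_eq_smul]
  exact ⟨fun h => by simpa using h.smul (AlgEquiv.ofRingEquiv (f := g) fun r => by simp)⁻¹,
    fun h => h.smul _⟩

end Lift

namespace GL2Tower

variable {K L N : Type} [Field K] [NumberField K] [Field L] [NumberField L] [Algebra K L]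
  [Field N] [NumberField N] [Algebra L N] [Algebra K N] [IsScalarTower K L N]
  (T : GL2Tower K L N)

include T

/-- Over an unramified place both steps are unramified. -/
lemma unram_N {W : Pl N} (h : Unram N (plUnder L W)) :
    plRamIdx T.Mf W = 1 ∧ plRamIdx L (plUnder T.Mf W) = 1 := by
  have h' := plRamIdx_tower (K := L) (N := T.Mf) W
  rw [h W rfl] at h'
  exact ⟨Nat.eq_one_of_mul_eq_one_left h'.symm, Nat.eq_one_of_mul_eq_one_right h'.symm⟩

/-- Over an unramified place of `L` the places of `M` are unramified. -/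
lemma unram_Mf {P : Pl T.Mf} (h : Unram N (plUnder L P)) : plRamIdx L P = 1 := by
  obtain ⟨W, rfl⟩ := CFT.exists_plUnder_eq (F := N) P
  rw [plUnder_plUnder' (N := T.Mf) W] at h
  exact (T.unram_N h).2

/-- The value of the character at a prime. -/
def th (P : Pl T.Mf) : ℂˣ :=
  haveI := T.isGalois_NM
  T.χ (frobPl N P)

/-- The value at a prime from any Frobenius over it. -/
lemma th_eq {P : Pl T.Mf} (h : Unram N (plUnder L P)) {W : Pl N} (hW : plUnder T.Mf W = P)
    {g : N ≃ₐ[T.Mf] N} (hg : Congr g W (resCard P)) : T.th P = T.χ g := by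
  have := T.isGalois_NM
  subst hW
  rw [th, frobPl_eq T.comm_NM (T.unram_N (by rwa [plUnder_plUnder' (N := T.Mf)] at h)).1 hg]

/-- The values at primes are fourth roots of unity. -/
lemma th_four (P : Pl T.Mf) : T.th P ^ 4 = 1 := T.χ_pow_four _

/-- The eigenvalue read off Frobenius at a place of `L`, meaningful where `N/L` is unramified. -/
def frobLam (w : Pl L) : ℝ :=
  haveI := T.isGalois_L
  Real.sqrt (resCard w) * (liftTr (T.eL (frobEl L (plOver N w))) : ℝ)

/-- The eigenvalue is the lifted trace of Frobenius times the square root of the residue count. -/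
lemma frobLam_eq {w : Pl L} (hw : Unram N w) {W : Pl N} (hW : plUnder L W = w)
    {g : N ≃ₐ[L] N} (hg : Congr g W (resCard w)) :
    T.frobLam w = Real.sqrt (resCard w) * (liftTr (T.eL g) : ℝ) := by
  have := T.isGalois_L
  subst hW
  obtain ⟨τ, hτ⟩ := exists_smul_eq_of_plUnder_eq (K := L)
    (plUnder_plOver (N := N) (plUnder L W))
  have h := (congr_frobEl (K := L) (plOver N (plUnder L W))).conj τ
  rw [plUnder_plOver, hτ] at h
  rw [frobLam, ← Congr.eq_of_congr (hw W rfl) h hg, map_mul, map_mul, map_inv, liftTr_conj]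

/-- A Frobenius compatible with the quadratic subfield, according to splitting. -/
lemma exists_frob {P : Pl T.Mf} (h : Unram N (plUnder L P)) :
    ∃ (W : Pl N) (g : N ≃ₐ[L] N), plUnder T.Mf W = P ∧ plUnder L W = plUnder L P ∧
      Congr g W (resCard (plUnder L P)) ∧
      ((T.σ • P = P ∧ g ∉ T.C ∧ resCard P = resCard (plUnder L P) ^ 2) ∨
        (T.σ • P ≠ P ∧ g ∈ T.C ∧ resCard P = resCard (plUnder L P))) := by
  have := T.isGalois_L
  obtain ⟨W, rfl⟩ := CFT.exists_plUnder_eq (F := N) P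
  have hWv : plUnder L W = plUnder L (plUnder T.Mf W) := (plUnder_plUnder' (N := T.Mf) W).symm
  have hg := congr_frobEl (K := L) W
  rw [hWv] at hg
  refine ⟨W, frobEl L W, rfl, hWv, hg, ?_⟩
  have hres := hg.restrictNormal (N := T.Mf)
  have hram := T.unram_Mf h
  obtain ⟨hord, hzp⟩ := congr_pow_stabilizer (plUnder T.Mf W) hram hres
  have hcard := resCard_eq_pow_card_stabilizer (K := L) (plUnder T.Mf W) hram
  rw [← hord] at hcard
  by_cases hC : frobEl L W ∈ T.C
  · rw [(T.restrict_eq_one_iff_mem _).mpr hC] at hord hzp hcard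
    refine Or.inr ⟨fun h => ?_, hC, by rw [hcard, orderOf_one, pow_one]⟩
    have : T.σ ∈ Subgroup.zpowers (1 : T.Mf ≃ₐ[L] T.Mf) := hzp ▸ MulAction.mem_stabilizer_iff.mpr h
    rw [Subgroup.zpowers_one_eq_bot, Subgroup.mem_bot] at this
    exact T.σ_ne_one this
  · have hne : (frobEl L W).restrictNormal T.Mf ≠ 1 :=
      fun h => hC ((T.restrict_eq_one_iff_mem _).mp h)
    have hc2 : Nat.card (T.Mf ≃ₐ[L] T.Mf) = 2 := by rw [IsGalois.card_aut_eq_finrank, T.finrank_Mf]
    have : Fact (Nat.Prime 2) := ⟨Nat.prime_two⟩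
    refine Or.inl ⟨?_, hC, ?_⟩
    · have : T.σ ∈ Subgroup.zpowers ((frobEl L W).restrictNormal T.Mf) :=
        mem_zpowers_of_prime_card hc2 hne
      rw [hzp] at this
      exact MulAction.mem_stabilizer_iff.mp this
    · rw [hcard, orderOf_eq_prime (p := 2) ?_ hne]
      rw [← hc2]; exact pow_card_eq_one'

/-- The character and the eigenvalue at inert and at split primes. -/
lemma th_cases {P : Pl T.Mf} (h : Unram N (plUnder L P)) :
    (T.σ • P = P → T.th P = -1 ∧ T.frobLam (plUnder L P) = 0) ∧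
      (T.σ • P ≠ P → (T.frobLam (plUnder L P) : ℂ) =
        (Real.sqrt (resCard (plUnder L P)) : ℂ) * ((T.th P : ℂ) + ((T.th P)⁻¹ : ℂˣ))) := by
  obtain ⟨W, g, hW, hWv, hg, hcase⟩ := T.exists_frob h
  have hlam := T.frobLam_eq h hWv hg
  rcases hcase with ⟨hs, hgC, hq⟩ | ⟨hs, hgC, hq⟩
  · refine ⟨fun _ => ?_, fun h => absurd hs h⟩
    have hI := T.isI_of_not_mem hgC
    refine ⟨?_, by rw [hlam, liftTr_isI hI]; simp⟩
    have hgg : g * g ∈ T.C := T.mem_C_iff.mpr (Or.inr (Or.inl (T.neg_of_isI hI)))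
    have hfix : ∀ x : T.Mf, (g * g) (algebraMap T.Mf N x) = algebraMap T.Mf N x := fun x =>
      (IntermediateField.mem_fixingSubgroup_iff _ _).mp (T.fixingSubgroup_Mf.symm ▸ hgg) _ x.2
    set g' : N ≃ₐ[T.Mf] N := AlgEquiv.ofRingEquiv (f := (g * g).toRingEquiv) hfix with hg'
    have hc : Congr g' W (resCard P) := by
      rw [hq, pow_two]
      exact fun x => hg.mul (resCard_pos _) hg x
    rw [T.th_eq h hW hc]
    refine T.χ_of_neg ?_
    rw [show T.resM g' = g * g from AlgEquiv.ext fun _ => rfl]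
    exact T.neg_of_isI hI
  · refine ⟨fun h => absurd h hs, fun _ => ?_⟩
    have hfix : ∀ x : T.Mf, g (algebraMap T.Mf N x) = algebraMap T.Mf N x := fun x =>
      (IntermediateField.mem_fixingSubgroup_iff _ _).mp (T.fixingSubgroup_Mf.symm ▸ hgC) _ x.2
    set g' : N ≃ₐ[T.Mf] N := AlgEquiv.ofRingEquiv (f := g.toRingEquiv) hfix with hg'
    have hc : Congr g' W (resCard P) := by rw [hq]; exact fun x => hg x
    rw [T.th_eq h hW hc, hlam, ← T.liftTr_eq_χ g',
      show T.resM g' = g from AlgEquiv.ext fun _ => rfl]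
    push_cast
    rfl

/-- Conjugation inverts the character at unramified primes. -/
lemma th_σ {P : Pl T.Mf} (h : Unram N (plUnder L P)) : T.th (T.σ • P) = (T.th P)⁻¹ := by
  have := T.isGalois_NM
  have := T.isGalois_L
  obtain ⟨W, hW⟩ := CFT.exists_plUnder_eq (F := N) P
  have hg := congr_frobEl (K := T.Mf) W
  rw [hW] at hg
  set g := frobEl T.Mf W
  have hPW : plUnder T.Mf (T.y₂ • W) = T.σ • P := (T.plUnder_σ hW T.y₂).symm
  have hσ : Unram N (plUnder L (T.σ • P)) := by rwa [plUnder_smul]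
  have hinv : T.y₂ * T.resM g * T.y₂⁻¹ = (T.resM g)⁻¹ := T.conj_C T.y₂_not_mem (T.resM_mem g)
  have hq : resCard (T.σ • P) = resCard P := by
    rw [resCard, resCard, smul_asIdeal, Ideal.absNorm_apply, Ideal.absNorm_apply,
      Submodule.cardQuot_apply, Submodule.cardQuot_apply]
    exact Nat.card_congr (Ideal.quotientEquiv P.asIdeal _
      (MulSemiringAction.toRingEquiv _ (𝓞 T.Mf) T.σ) rfl).symm.toEquiv
  have hc : Congr g⁻¹ (T.y₂ • W) (resCard (T.σ • P)) := by
    have h := (show Congr (T.resM g) W (resCard P) from fun x => hg x).conj T.y₂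
    rw [hinv, ← map_inv, ← hq] at h
    exact fun x => h x
  rw [T.th_eq hσ hPW hc, map_inv, T.th_eq h hW hg]

/-- The eigenvalues are invariant under automorphisms of `L`. -/
lemma frobLam_mapPlace (g : L ≃+* L) {w : Pl L} (h : Unram N w) :
    T.frobLam (Fermat.LT.mapPlace g w) = T.frobLam w := by
  have := T.isGalois_L
  have := T.galois
  rw [mapPlace_eq_smul]
  set ga : L ≃ₐ[ℚ] L := AlgEquiv.ofRingEquiv (f := g) fun r => by simp
  set t : N ≃ₐ[ℚ] N := ga.liftNormal N
  set W := plOver N w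
  have hW : plUnder L W = w := plUnder_plOver w
  have hg := congr_frobEl (K := L) W
  rw [hW] at hg
  have hq : resCard (ga • w) = resCard w := by
    rw [resCard, resCard, smul_asIdeal, Ideal.absNorm_apply, Ideal.absNorm_apply,
      Submodule.cardQuot_apply, Submodule.cardQuot_apply]
    exact Nat.card_congr (Ideal.quotientEquiv w.asIdeal _
      (MulSemiringAction.toRingEquiv _ (𝓞 L) ga) rfl).symm.toEquiv
  obtain ⟨y', hy'⟩ := T.exists_eL_eq (X := T.e t * T.eL (frobEl L W) * (T.e t)⁻¹) (by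
    rw [Units.val_mul, Units.val_mul]; exact isQ_conj (T.eL_isQ _) _)
  have hc : Congr y' (t • W) (resCard (ga • w)) := by
    rw [hq]
    refine (T.congr_iff_eq ?_).mp ((congr_restrict.mpr hg).conj t)
    rw [hy', map_mul, map_mul, map_inv]; rfl
  rw [T.frobLam_eq (h.smul ga) (by rw [plUnder_liftNormal_smul, hW]) hc, hq, hy', liftTr_conj,
    T.frobLam_eq h hW hg]

end GL2Tower

namespace QTower

variable {K L N : Type} [Field K] [NumberField K] [Field L] [NumberField L] [Algebra K L]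
  [Field N] [NumberField N] [Algebra L N] [Algebra K N] [IsScalarTower K L N]
  (T : QTower K L N)

include T

/-- Away from `3` the extension is unramified. -/
lemma unram {w : Pl L} (h3 : (3 : 𝓞 L) ∉ w.asIdeal) : Unram N w := by
  rintro W rfl
  exact T.plRamIdx_eq_one fun h => h3 (three_mem_plUnder.mpr h)

/-- Away from `3` the places of `M` lie over unramified places. -/
lemma unram_under {P : Pl T.Mf} (h3 : (3 : 𝓞 T.Mf) ∉ P.asIdeal) : Unram N (plUnder L P) :=
  T.unram fun h => h3 (three_mem_plUnder.mp h)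

end QTower

section Galois

local notation "ℚbar" => AlgebraicClosure ℚ
local notation "Γℚ" => (AlgebraicClosure ℚ ≃ₐ[ℚ] AlgebraicClosure ℚ)

/-- A place fixed by the `ℓ`-th power map has `ℓ` residues. -/
lemma resCard_eq_of_pow {E : Type} [Field E] [NumberField E] {v : Pl E} {ℓ : ℕ} (hℓ : ℓ.Prime)
    (hmem : (ℓ : 𝓞 E) ∈ v.asIdeal) (h : ∀ x : 𝓞 E, x ^ ℓ - x ∈ v.asIdeal) : resCard v = ℓ := by
  have hfin : Finite (𝓞 E ⧸ v.asIdeal) := Ideal.finiteQuotientOfFreeOfNeBot _ v.ne_bot
  let _ : Field (𝓞 E ⧸ v.asIdeal) := Ideal.Quotient.field _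
  let _ : Fintype (𝓞 E ⧸ v.asIdeal) := Fintype.ofFinite _
  have hcard : Fintype.card (𝓞 E ⧸ v.asIdeal) = resCard v := by
    rw [resCard, Ideal.absNorm_apply, Submodule.cardQuot_apply, Nat.card_eq_fintype_card]
  have hx : ∀ y : 𝓞 E ⧸ v.asIdeal, y ^ ℓ = y := by
    intro y
    obtain ⟨x, rfl⟩ := Ideal.Quotient.mk_surjective y
    rw [← map_pow]
    exact Ideal.Quotient.eq.mpr (h x)
  have hne : (Polynomial.X ^ ℓ - Polynomial.X : Polynomial (𝓞 E ⧸ v.asIdeal)) ≠ 0 :=
    FiniteField.X_pow_card_sub_X_ne_zero _ hℓ.one_lt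
  have hall := Polynomial.card_le_degree_of_subset_roots
    (Z := (Finset.univ : Finset (𝓞 E ⧸ v.asIdeal)))
    (p := (Polynomial.X ^ ℓ - Polynomial.X : Polynomial (𝓞 E ⧸ v.asIdeal))) fun y _ => by
      rw [Polynomial.mem_roots hne]
      simp [hx y]
  rw [Finset.card_univ, hcard, FiniteField.X_pow_card_sub_X_natDegree_eq _ hℓ.one_lt] at hall
  have hz : (ℓ : 𝓞 E ⧸ v.asIdeal) = 0 := by
    rw [← map_natCast (Ideal.Quotient.mk v.asIdeal)]
    exact Ideal.Quotient.eq_zero_iff_mem.mpr hmem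
  have : CharP (𝓞 E ⧸ v.asIdeal) ℓ := (CharP.charP_iff_prime_eq_zero hℓ).mpr hz
  obtain ⟨n, -, hn⟩ := FiniteField.card (𝓞 E ⧸ v.asIdeal) ℓ
  rw [hcard] at hn
  refine le_antisymm hall ?_
  rw [hn]
  exact Nat.le_self_pow n.ne_zero _

namespace GL2Tower

variable {ρ : Γℚ →* GL (Fin 2) (ZMod 3)} [FiniteDimensional ℚ (nField ρ)] [Normal ℚ (nField ρ)]
  {K L : Type} [Field K] [NumberField K] [Field L] [NumberField L] [Algebra K L]
  [Algebra L (nField ρ)] [Algebra K (nField ρ)] [IsScalarTower K L (nField ρ)]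
  (T : GL2Tower K L (nField ρ)) {ι : L →+* ℚbar} (hF : FieldData K L ρ ι)

/-- At an unramified place the eigenvalue is read off any Frobenius of `ρ` fixing `L`. -/
lemma frobLam_eq_of_frobenius (hTe : ∀ σ, T.e (AlgEquiv.restrictNormalHom (nField ρ) σ) = ρ σ)
    (hL : algebraMap L (nField ρ) = lIncl hF) {w : Pl L} (hw : Unram (nField ρ) w)
    {A : ValuationSubring ℚbar} (hA : ∀ x : 𝓞 L, x ∈ w.asIdeal ↔ ι (x : L) ∈ A.nonunits)
    {σ : Γℚ} (hσ : ∀ x, σ (ι x) = ι x) (hfrob : A.IsFrobeniusAt σ (resCard w)) :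
    T.frobLam w = Real.sqrt (resCard w) * (liftTr (ρ σ) : ℝ) := by
  set g := AlgEquiv.restrictNormalHom (nField ρ) σ
  have hcg : ∀ x : 𝓞 (nField ρ), g • x - x ^ resCard w ∈ primeBelow (nField ρ) A := by
    intro x
    rw [primeBelow, Ideal.mem_comap, map_sub, map_pow, algebraMap_restrict_smul]
    exact smul_sub_pow_mem hfrob _
  have hco : ∀ x : 𝓞 L, ((algebraMap (𝓞 (nField ρ)) (𝓞 ℚbar)
      (algebraMap (𝓞 L) (𝓞 (nField ρ)) x) : 𝓞 ℚbar) : ℚbar) = ι (x : L) := fun x => by
    change ((algebraMap L (nField ρ) (x : L) : nField ρ) : ℚbar) = _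
    rw [hL, coe_lIncl]
  have hmem : ∀ x : 𝓞 L, algebraMap (𝓞 L) (𝓞 (nField ρ)) x ∈ primeBelow (nField ρ) A ↔
      x ∈ w.asIdeal := fun x => by
    rw [primeBelow, Ideal.mem_comap, mem_primeOf, hco, hA]
  have hne : primeBelow (nField ρ) A ≠ ⊥ := fun hbot => by
    obtain ⟨x, hx, hx0⟩ := Submodule.exists_mem_ne_zero_of_ne_bot w.ne_bot
    have := (hmem x).mpr hx
    rw [hbot, Ideal.mem_bot] at this
    exact hx0 ((FaithfulSMul.algebraMap_injective (𝓞 L) (𝓞 (nField ρ))) (by rw [this, map_zero]))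
  set W : Pl (nField ρ) := ⟨primeBelow (nField ρ) A, inferInstance, hne⟩
  have hW : plUnder L W = w := HeightOneSpectrum.ext (SetLike.ext fun x => by
    rw [asIdeal_plUnder, Ideal.under, Ideal.mem_comap]; exact hmem x)
  obtain ⟨y, hy⟩ := T.exists_eL_eq (X := ρ σ) ((inQ8_iff _).mp ((hF.fixL σ).mp hσ))
  rw [T.frobLam_eq hw hW ((T.congr_iff_eq (g := g) (by rw [hy, hTe])).mp hcg), hy]

end GL2Tower

end Galois

end Fermat.LT.Theta.Gal
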