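import Fermat.Agent.LT.Theta.Artin

/-!
# Inertia in Galois extensions of number fields

`stabilizer_card_eq` gives the order `e f` of decomposition groups; `quadratic_cases` lists the
stable primes of a quadratic extension.
-/

set_option autoImplicit false

noncomputable section

open NumberField IsDedekindDomain Fermat.CFT
open scoped Pointwise

namespace Fermat.LT.Theta

variable {K N : Type} [Field K] [NumberField K] [Field N] [NumberField N] [Algebra K N]
  {g : N ≃ₐ[K] N} {w : Pl N}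

/-- The residue count lies in the prime. -/
lemma natCast_resCard_mem (w : Pl N) : (resCard w : 𝓞 N) ∈ w.asIdeal :=
  Ideal.absNorm_mem w.asIdeal

omit [NumberField K] [NumberField N] in
/-- The inertia condition. -/
lemma Congr.one_iff : Congr g w 1 ↔ ∀ x : 𝓞 N, g • x - x ∈ w.asIdeal := by
  simp [Congr]

/-- Inertia is closed under powers. -/
lemma Congr.inert_pow (hg : Congr g w 1) (n : ℕ) : Congr (g ^ n) w 1 := by
  simpa using hg.pow one_pos n

/-- Inertia is closed under products. -/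
lemma Congr.inert_mul {h : N ≃ₐ[K] N} (hg : Congr g w 1) (hh : Congr h w 1) :
    Congr (g * h) w 1 := by simpa using hg.mul one_pos hh

/-- The residue count power of congruent elements agrees modulo the square. -/
lemma pow_sub_pow_mem_sq {a b : 𝓞 N} (h : a - b ∈ w.asIdeal) :
    a ^ resCard w - b ^ resCard w ∈ w.asIdeal ^ 2 := by
  rw [← geom_sum₂_mul, pow_two]
  refine Ideal.mul_mem_mul ?_ h
  rw [← Ideal.Quotient.eq_zero_iff_mem, map_sum,
    Finset.sum_congr rfl (g := fun _ => Ideal.Quotient.mk w.asIdeal b ^ (resCard w - 1))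
      fun i hi => ?_]
  · rw [Finset.sum_const, Finset.card_range, nsmul_eq_mul,
      ← map_natCast (Ideal.Quotient.mk w.asIdeal),
      Ideal.Quotient.eq_zero_iff_mem.mpr (natCast_resCard_mem w), zero_mul]
  · rw [map_mul, map_pow, map_pow, Ideal.Quotient.eq.mpr h, ← pow_add]
    congr 1
    have := Finset.mem_range.mp hi
    omega

/-- Fermat's little theorem in a residue field. -/
lemma pow_card_sub_one_sub_one_mem {u : 𝓞 N} (hu : u ∉ w.asIdeal) :
    u ^ (resCard w - 1) - 1 ∈ w.asIdeal := by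
  have hfin : Finite (𝓞 N ⧸ w.asIdeal) := Ideal.finiteQuotientOfFreeOfNeBot _ w.ne_bot
  let _ : Field (𝓞 N ⧸ w.asIdeal) := Ideal.Quotient.field _
  let _ : Fintype (𝓞 N ⧸ w.asIdeal) := Fintype.ofFinite _
  have hcard : Fintype.card (𝓞 N ⧸ w.asIdeal) = resCard w := by
    rw [resCard, Ideal.absNorm_apply, Submodule.cardQuot_apply, Nat.card_eq_fintype_card]
  rw [← Ideal.Quotient.eq, map_pow, map_one, ← hcard]
  exact FiniteField.pow_card_sub_one_eq_one _ fun h0 => hu (Ideal.Quotient.eq_zero_iff_mem.mp h0)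

/-- An element of `w` is a multiple of a uniformiser modulo `w²`. -/
lemma exists_sub_mul_mem {π : 𝓞 N} (hπ : π ∈ w.asIdeal) (hπ2 : π ∉ w.asIdeal ^ 2) {y : 𝓞 N}
    (hy : y ∈ w.asIdeal) : ∃ u : 𝓞 N, y - u * π ∈ w.asIdeal ^ 2 := by
  have hsup : Ideal.span {π} ⊔ w.asIdeal ^ 2 = w.asIdeal ^ 1 := by
    refine Ideal.eq_prime_pow_of_succ_lt_of_le w.ne_bot ?_ ?_
    · refine lt_of_le_of_ne le_sup_right fun h => hπ2 ?_
      rw [show (1 : ℕ) + 1 = 2 from rfl] at h
      rw [h]; exact Ideal.mem_sup_left (Ideal.mem_span_singleton_self π)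
    · rw [pow_one]
      exact sup_le ((Ideal.span_singleton_le_iff_mem _).mpr hπ) (Ideal.pow_le_self two_ne_zero)
  rw [pow_one] at hsup
  rw [← hsup] at hy
  obtain ⟨a, ha, b, hb, hab⟩ := Submodule.mem_sup.mp hy
  obtain ⟨u, rfl⟩ := Ideal.mem_span_singleton'.mp ha
  exact ⟨u, by rw [← hab]; simpa using hb⟩

/-- Inertia preserves the square of the prime. -/
lemma Congr.smul_mem_sq (hg : Congr g w 1) {x : 𝓞 N} (hx : x ∈ w.asIdeal ^ 2) :
    g • x ∈ w.asIdeal ^ 2 := by
  rw [pow_two] at hx ⊢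
  refine Submodule.mul_induction_on hx (fun a ha b hb => ?_) fun a b ha hb => ?_
  · rw [smul_mul']; exact Ideal.mul_mem_mul (hg.smul_mem one_pos ha) (hg.smul_mem one_pos hb)
  · rw [smul_add]; exact add_mem ha hb

/-- Inertia is closed under inverses. -/
lemma Congr.inert_inv (hg : Congr g w 1) : Congr g⁻¹ w 1 := by
  have h : g⁻¹ = g ^ (orderOf g - 1) := by
    rw [inv_eq_iff_mul_eq_one, ← pow_succ', Nat.sub_add_cancel (orderOf_pos g), pow_orderOf_eq_one]
  rw [h]; exact hg.inert_pow _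

omit [NumberField N] in
/-- A product of two elements of the prime lies in its square. -/
lemma mul_mem_sq {a b : 𝓞 N} (ha : a ∈ w.asIdeal) (hb : b ∈ w.asIdeal) :
    a * b ∈ w.asIdeal ^ 2 := by
  rw [pow_two]; exact Ideal.mul_mem_mul ha hb

/-- Composition of the leading coefficients at a uniformiser. -/
lemma Congr.lead_mul {h : N ≃ₐ[K] N} (hg : Congr g w 1) {π u u' : 𝓞 N} (hπ : π ∈ w.asIdeal)
    (hu : g • π - u * π ∈ w.asIdeal ^ 2) (hu' : h • π - u' * π ∈ w.asIdeal ^ 2) :
    (g * h) • π - u' * u * π ∈ w.asIdeal ^ 2 := by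
  have e : (g * h) • π - u' * u * π = g • (h • π - u' * π) + (g • u' - u') * (g • π)
      + u' * (g • π - u * π) := by
    rw [mul_smul, smul_sub, smul_mul']; ring
  rw [e]
  exact add_mem (add_mem (hg.smul_mem_sq hu')
    (mul_mem_sq (Congr.one_iff.mp hg _) (hg.smul_mem one_pos hπ))) (Ideal.mul_mem_left _ _ hu)

/-- An element of inertia of order prime to the residue characteristic fixing a uniformiser to
second order is trivial. -/
theorem Congr.eq_one_of_fix {h : N ≃ₐ[K] N} (hhi : Congr h w 1) {r : ℕ} (hhr : h ^ r = 1)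
    (hrw : (r : 𝓞 N) ∉ w.asIdeal) {π : 𝓞 N} (hπ : π ∈ w.asIdeal) (hπ2 : π ∉ w.asIdeal ^ 2)
    (hhπ : h • π - π ∈ w.asIdeal ^ 2) : h = 1 := by
  have hmem : ∀ a b : 𝓞 N, a ∈ w.asIdeal → b ∈ w.asIdeal → a * b ∈ w.asIdeal ^ 2 :=
    fun a b ha hb => mul_mem_sq ha hb
  -- the action modulo the square
  have hbase : ∀ x : 𝓞 N, h • x - x ∈ w.asIdeal ^ 2 := by
    intro x
    have hy : x - x ^ resCard w ∈ w.asIdeal := by
      have hfin : Finite (𝓞 N ⧸ w.asIdeal) := Ideal.finiteQuotientOfFreeOfNeBot _ w.ne_bot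
      let _ : Field (𝓞 N ⧸ w.asIdeal) := Ideal.Quotient.field _
      let _ : Fintype (𝓞 N ⧸ w.asIdeal) := Fintype.ofFinite _
      have hcard : Fintype.card (𝓞 N ⧸ w.asIdeal) = resCard w := by
        rw [resCard, Ideal.absNorm_apply, Submodule.cardQuot_apply, Nat.card_eq_fintype_card]
      rw [← Ideal.Quotient.eq, map_pow, ← hcard, FiniteField.pow_card]
    obtain ⟨t, ht⟩ := exists_sub_mul_mem hπ hπ2 hy
    have h1 : h • x ^ resCard w - x ^ resCard w ∈ w.asIdeal ^ 2 := by
      rw [smul_pow']; exact pow_sub_pow_mem_sq (Congr.one_iff.mp hhi x)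
    have h2 : h • (t * π) - t * π ∈ w.asIdeal ^ 2 := by
      have := add_mem (hmem _ _ (Congr.one_iff.mp hhi t) (hhi.smul_mem one_pos hπ))
        (Ideal.mul_mem_left (w.asIdeal ^ 2) t hhπ)
      rw [smul_mul']
      convert this using 1; ring
    have e : h • x - x = (h • x ^ resCard w - x ^ resCard w) + (h • (t * π) - t * π)
        + (h • (x - x ^ resCard w - t * π) - (x - x ^ resCard w - t * π)) := by
      simp only [smul_sub]; ring
    rw [e]
    exact add_mem (add_mem h1 h2) (sub_mem (hhi.smul_mem_sq ht) ht)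
  -- the higher steps
  have hstep : ∀ n : ℕ, 1 ≤ n → ∀ d ∈ w.asIdeal ^ n, h • d - d ∈ w.asIdeal ^ (n + 1) := by
    intro n hn
    induction n, hn using Nat.le_induction with
    | base => exact fun d _ => hbase d
    | succ n hn ih =>
      intro d hd
      rw [pow_succ] at hd
      refine Submodule.mul_induction_on hd (fun a ha b hb => ?_) fun a b ha hb => ?_
      · have h1 : (h • a - a) * (h • b) ∈ w.asIdeal ^ (n + 1 + 1) := by
          rw [pow_succ _ (n + 1)]; exact Ideal.mul_mem_mul (ih a ha) (hhi.smul_mem one_pos hb)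
        have h2 : a * (h • b - b) ∈ w.asIdeal ^ (n + 1 + 1) := by
          rw [show n + 1 + 1 = n + 2 by omega, pow_add]; exact Ideal.mul_mem_mul ha (hbase b)
        have := add_mem h1 h2
        rw [smul_mul']
        convert this using 1; ring
      · have := add_mem ha hb
        rw [smul_add]
        convert this using 1; ring
  refine AlgEquiv.ext fun z => ?_
  suffices hfix : ∀ x : 𝓞 N, h • x = x by
    obtain ⟨a, b, -, rfl⟩ := IsFractionRing.div_surjective (A := 𝓞 N) z
    rw [map_div₀]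
    exact congrArg₂ (· / ·) (congrArg (fun y : 𝓞 N => (y : N)) (hfix a))
      (congrArg (fun y : 𝓞 N => (y : N)) (hfix b))
  intro x
  set d := h • x - x with hd
  have hall : ∀ n : ℕ, d ∈ w.asIdeal ^ (n + 1) := by
    intro n
    induction n with
    | zero => exact Ideal.pow_le_pow_right one_le_two (hbase x)
    | succ n ih =>
      have hk : ∀ k : ℕ, h ^ k • x - (x + (k : 𝓞 N) * d) ∈ w.asIdeal ^ (n + 1 + 1) := by
        intro k
        induction k with
        | zero => simp
        | succ k ihk =>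
          have hdk : h • ((k : 𝓞 N) * d) - (k : 𝓞 N) * d ∈ w.asIdeal ^ (n + 1 + 1) :=
            hstep (n + 1) n.succ_pos _ (Ideal.mul_mem_left _ _ ih)
          have hmap : h • (h ^ k • x - (x + (k : 𝓞 N) * d)) ∈ w.asIdeal ^ (n + 1 + 1) := by
            have h3 := hstep (n + 1 + 1) (n + 1).succ_pos _ ihk
            have := add_mem (Ideal.pow_le_pow_right (Nat.le_succ _) h3) ihk
            rwa [sub_add_cancel] at this
          have e : h ^ (k + 1) • x - (x + ((k + 1 : ℕ) : 𝓞 N) * d)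
              = h • (h ^ k • x - (x + (k : 𝓞 N) * d))
                + (h • ((k : 𝓞 N) * d) - (k : 𝓞 N) * d) := by
            rw [pow_succ', mul_smul, smul_sub, smul_add, hd]; push_cast; ring
          rw [e]
          exact add_mem hmap hdk
      have h4 := hk r
      rw [hhr, one_smul, sub_add_cancel_left, neg_mem_iff] at h4
      exact ((Ideal.IsPrime.mul_mem_pow w.asIdeal h4).resolve_left hrw)
  have h0 : d ∈ ⨅ n : ℕ, w.asIdeal ^ n := Submodule.mem_iInf _ |>.mpr fun n => by
    rcases n with - | n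
    · simp
    · exact hall n
  rw [Ideal.iInf_pow_eq_bot_of_isDomain _ w.isPrime.ne_top, Submodule.mem_bot] at h0
  exact sub_eq_zero.mp h0

/-- An element of inertia of order prime to the residue characteristic has order dividing
`q - 1`. -/
theorem Congr.inert_pow_eq_one (hg : Congr g w 1) {r : ℕ} (hr : g ^ r = 1)
    (hrw : (r : 𝓞 N) ∉ w.asIdeal) : g ^ (resCard w - 1) = 1 := by
  have hr0 : r ≠ 0 := by rintro rfl; simp at hrw
  obtain ⟨π, hπ, hπ2⟩ := SetLike.exists_of_lt
    (Ideal.pow_lt_self w.asIdeal w.ne_bot w.isPrime.ne_top 2 le_rfl)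
  obtain ⟨u, hu⟩ := exists_sub_mul_mem hπ hπ2 (hg.smul_mem one_pos hπ)
  have hpw : ∀ k : ℕ, g ^ k • π - u ^ k * π ∈ w.asIdeal ^ 2 := by
    intro k
    induction k with
    | zero => simp
    | succ k ih =>
      have := hg.lead_mul hπ hu ih
      rwa [← pow_succ', ← pow_succ] at this
  have hunit : u ∉ w.asIdeal := fun h0 => hπ2 <| by
    have := add_mem (hpw r) (mul_mem_sq (w.asIdeal.pow_mem_of_mem h0 r (Nat.pos_of_ne_zero hr0)) hπ)
    rwa [sub_add_cancel, hr, one_smul] at this
  refine (hg.inert_pow _).eq_one_of_fix (r := r) ?_ hrw hπ hπ2 ?_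
  · rw [← pow_mul, mul_comm, pow_mul, hr, one_pow]
  · have := add_mem (hpw (resCard w - 1)) (mul_mem_sq (pow_card_sub_one_sub_one_mem hunit) hπ)
    rwa [sub_one_mul, sub_add_sub_cancel] at this

/-- The tame part of inertia is commutative. -/
theorem Congr.inert_comm {h : N ≃ₐ[K] N} (hg : Congr g w 1) (hh : Congr h w 1) {r : ℕ}
    (hr : ((h * g)⁻¹ * (g * h)) ^ r = 1) (hrw : (r : 𝓞 N) ∉ w.asIdeal) : g * h = h * g := by
  obtain ⟨π, hπ, hπ2⟩ := SetLike.exists_of_lt
    (Ideal.pow_lt_self w.asIdeal w.ne_bot w.isPrime.ne_top 2 le_rfl)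
  obtain ⟨u, hu⟩ := exists_sub_mul_mem hπ hπ2 (hg.smul_mem one_pos hπ)
  obtain ⟨u', hu'⟩ := exists_sub_mul_mem hπ hπ2 (hh.smul_mem one_pos hπ)
  have hsub : (g * h) • π - (h * g) • π ∈ w.asIdeal ^ 2 := by
    have := sub_mem (hg.lead_mul hπ hu hu') (hh.lead_mul hπ hu' hu)
    rwa [mul_comm u' u, sub_sub_sub_cancel_right] at this
  have h2 := (hh.inert_mul hg).inert_inv.smul_mem_sq hsub
  rw [smul_sub, ← mul_smul, inv_smul_smul] at h2
  have := ((hh.inert_mul hg).inert_inv.inert_mul (hg.inert_mul hh)).eq_one_of_fix hr hrw hπ hπ2 h2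
  exact (inv_mul_eq_one.mp this).symm

section Galois

variable [IsGalois K N]

/-- The decomposition group has order `e f`, and the residue count is the base one to the power
`f`. -/
lemma stabilizer_card_eq (w : Pl N) :
    Nat.card (MulAction.stabilizer (N ≃ₐ[K] N) w)
      = plRamIdx K w * (plUnder K w).asIdeal.inertiaDeg' w.asIdeal ∧
    resCard w = resCard (plUnder K w) ^ (plUnder K w).asIdeal.inertiaDeg' w.asIdeal := by
  have : Finite (𝓞 K ⧸ (plUnder K w).asIdeal) :=
    Ideal.finiteQuotientOfFreeOfNeBot _ (plUnder K w).ne_bot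
  have h1 := Ideal.card_stabilizer_eq (G := N ≃ₐ[K] N) (plUnder K w).asIdeal w.asIdeal
  rw [Ideal.ramificationIdxIn_eq_ramificationIdx (plUnder K w).asIdeal w.asIdeal (N ≃ₐ[K] N),
    ← plRamIdx_eq,
    Ideal.inertiaDegIn_eq_inertiaDeg (plUnder K w).asIdeal w.asIdeal (N ≃ₐ[K] N)] at h1
  have h2 : MulAction.stabilizer (N ≃ₐ[K] N) w = MulAction.stabilizer (N ≃ₐ[K] N) w.asIdeal := by
    ext g
    simp only [MulAction.mem_stabilizer_iff]
    exact ⟨fun h => congrArg HeightOneSpectrum.asIdeal h, fun h => HeightOneSpectrum.ext h⟩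
  have h3 : (plUnder K w).asIdeal.inertiaDeg' w.asIdeal = w.asIdeal.inertiaDeg (𝓞 K) :=
    Ideal.inertiaDeg'_eq_inertiaDeg _ _
  exact ⟨by rw [h2, h1, h3], by
    rw [resCard, resCard, h3, Ideal.absNorm_pow_inertiaDeg (plUnder K w).asIdeal w.asIdeal]⟩

/-- If the decomposition group is inertia, the residue count is that of the place below. -/
lemma resCard_eq_of_stabilizer_inert (w : Pl N)
    (hI : ∀ g : N ≃ₐ[K] N, g • w = w → Congr g w 1) : resCard w = resCard (plUnder K w) := by
  have hφ := congr_frobEl (K := K) w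
  have hmem : frobEl K w • w = w := by
    refine HeightOneSpectrum.ext ?_
    have : frobEl K w • w.asIdeal ≤ w.asIdeal := by
      rw [Ideal.pointwise_smul_def, Ideal.map_le_iff_le_comap]
      exact fun x hx => hφ.smul_mem (resCard_pos _) hx
    exact (frobEl K w • w).isMaximal.eq_of_le w.isPrime.ne_top this
  set q := resCard (plUnder K w) with hq
  have hfin : Finite (𝓞 N ⧸ w.asIdeal) := Ideal.finiteQuotientOfFreeOfNeBot _ w.ne_bot
  let _ : Field (𝓞 N ⧸ w.asIdeal) := Ideal.Quotient.field _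
  let _ : Fintype (𝓞 N ⧸ w.asIdeal) := Fintype.ofFinite _
  have hcard : Fintype.card (𝓞 N ⧸ w.asIdeal) = resCard w := by
    rw [resCard, Ideal.absNorm_apply, Submodule.cardQuot_apply, Nat.card_eq_fintype_card]
  -- Frobenius fixes `w`, so is trivial on its residue field
  have hx : ∀ y : 𝓞 N ⧸ w.asIdeal, y ^ q = y := by
    intro y
    obtain ⟨x, rfl⟩ := Ideal.Quotient.mk_surjective y
    have h1 := Congr.one_iff.mp (hI _ hmem) x
    have h2 := sub_mem h1 (hφ x)
    rwa [sub_sub_sub_cancel_left, ← Ideal.Quotient.eq, map_pow] at h2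
  have h1q : 1 < q := one_lt_resCard _
  have hne : (Polynomial.X ^ q - Polynomial.X : Polynomial (𝓞 N ⧸ w.asIdeal)) ≠ 0 :=
    FiniteField.X_pow_card_sub_X_ne_zero _ h1q
  have hall := Polynomial.card_le_degree_of_subset_roots
    (Z := (Finset.univ : Finset (𝓞 N ⧸ w.asIdeal)))
    (p := (Polynomial.X ^ q - Polynomial.X : Polynomial (𝓞 N ⧸ w.asIdeal))) fun y _ => by
      rw [Polynomial.mem_roots hne]
      simp [hx y]
  -- hence that field has at most `q` elements
  rw [Finset.card_univ, hcard, FiniteField.X_pow_card_sub_X_natDegree_eq _ h1q] at hall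
  obtain ⟨-, hf⟩ := stabilizer_card_eq (K := K) w
  -- and it contains the one below
  refine le_antisymm hall ?_
  rcases Nat.eq_zero_or_pos ((plUnder K w).asIdeal.inertiaDeg' w.asIdeal) with h0 | h0
  · rw [h0, pow_zero] at hf
    exact absurd hf.symm (one_lt_resCard w).ne
  · rw [hf]; exact Nat.le_self_pow h0.ne' _

/-- A nontrivial inertia element forces ramification. -/
lemma plRamIdx_ne_one_of_inert {g : N ≃ₐ[K] N} (hg : Congr g w 1) (hg1 : g ≠ 1) :
    plRamIdx K w ≠ 1 := fun h => hg1 (Congr.eq_of_congr h hg Congr.one)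

/-- The possibilities for a stable prime of a quadratic extension. -/
lemma quadratic_cases (hN : Module.finrank K N = 2) (hst : ∀ g : N ≃ₐ[K] N, g • w = w) :
    (plRamIdx K w = 1 ∧ resCard w = resCard (plUnder K w) ^ 2) ∨
      (plRamIdx K w = 2 ∧ resCard w = resCard (plUnder K w)) := by
  obtain ⟨h1, h2⟩ := stabilizer_card_eq (K := K) w
  have hc : Nat.card (MulAction.stabilizer (N ≃ₐ[K] N) w) = 2 := by
    rw [show MulAction.stabilizer (N ≃ₐ[K] N) w = ⊤ from
      eq_top_iff.mpr fun g _ => MulAction.mem_stabilizer_iff.mpr (hst g),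
      Subgroup.card_top, IsGalois.card_aut_eq_finrank, hN]
  rw [hc] at h1
  have he : plRamIdx K w = 1 ∨ plRamIdx K w = 2 :=
    (Nat.dvd_prime Nat.prime_two).mp ⟨_, h1⟩
  rcases he with he | he
  · rw [he, one_mul] at h1
    exact Or.inl ⟨he, by rw [h2, ← h1]⟩
  · rw [he] at h1
    refine Or.inr ⟨he, ?_⟩
    rw [h2, show (plUnder K w).asIdeal.inertiaDeg' w.asIdeal = 1 by omega, pow_one]

end Galois

end Fermat.LT.Theta
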