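import Fermat.Agent.LT.Theta.Gal.MField

/-!
# Degrees, the field `K = ℚ(ζ₃)`, total complexity, places under restriction, and the fixed
field of `±1`

Among them are `exists_v3`, `finrank_K` and `finrank_Mf'`.
-/

set_option autoImplicit false

noncomputable section

open NumberField IsDedekindDomain Fermat.CFT
open scoped Pointwise

namespace Fermat.LT.Theta.Gal

local notation "G₃" => GL (Fin 2) (ZMod 3)

section ThreeAdic

variable {K : Type} [Field K] [NumberField K]

/-- A field with a cube root of unity is totally complex. -/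
lemma totallyComplex_of_zeta {ζ : K} (hζ : IsPrimitiveRoot ζ 3) : IsTotallyComplex K :=
  nrRealPlaces_eq_zero_iff.mp (InfinitePlace.IsPrimitiveRoot.nrRealPlaces_eq_zero_of_two_lt
    (by norm_num) hζ)

/-- `3` has one place in a quadratic field with cube roots of unity, of norm `3`. -/
theorem exists_v3 (h2 : Module.finrank ℚ K = 2) {ζ : K} (hζ : IsPrimitiveRoot ζ 3) :
    ∃ v : Pl K, (3 : 𝓞 K) ∈ v.asIdeal ∧ resCard v = 3 ∧
      ∀ u : Pl K, (3 : 𝓞 K) ∈ u.asIdeal → u = v := by
  set z : 𝓞 K := ⟨ζ, hζ.isIntegral (by norm_num)⟩ with hz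
  have hsum : ζ ^ 2 + ζ + 1 = 0 := by
    have := hζ.geom_sum_eq_zero (by norm_num)
    rw [Finset.sum_range_succ, Finset.sum_range_succ, Finset.sum_range_one] at this
    linear_combination this
  -- `3` is a unit times the square of `z - 1`
  have e : (3 : 𝓞 K) = -(z ^ 2) * (z - 1) ^ 2 := RingOfIntegers.ext (by
    push_cast
    change (3 : K) = -(ζ ^ 2) * (ζ - 1) ^ 2
    linear_combination (ζ ^ 2 - 3 * ζ + 3) * hsum)
  have hzu : IsUnit z := by
    refine IsUnit.of_mul_eq_one (z ^ 2) (RingOfIntegers.ext ?_)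
    push_cast
    change ζ * ζ ^ 2 = 1
    rw [← pow_succ']
    exact hζ.pow_eq_one
  -- so `z - 1` generates a prime of norm three
  have hnorm : Ideal.absNorm (Ideal.span {z - 1}) = 3 := by
    have h9 : Ideal.absNorm (Ideal.span {(3 : 𝓞 K)}) = 9 := by
      rw [Ideal.absNorm_span_singleton, show (3 : 𝓞 K) = algebraMap ℤ (𝓞 K) 3 from
        (map_ofNat _ 3).symm, Algebra.norm_algebraMap, RingOfIntegers.rank, h2]
      rfl
    have hspan : Ideal.span {(3 : 𝓞 K)} = Ideal.span {z - 1} ^ 2 := by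
      rw [Ideal.span_singleton_pow, Ideal.span_singleton_eq_span_singleton]
      exact ⟨(hzu.pow 2).neg.unit⁻¹, by
        rw [e, mul_comm, ← mul_assoc, IsUnit.val_inv_mul, one_mul]⟩
    rw [hspan, map_pow] at h9
    exact Nat.pow_left_injective two_ne_zero (by simpa using h9)
  have hprime : (Ideal.span {z - 1}).IsPrime :=
    Ideal.isPrime_of_irreducible_absNorm (by rw [hnorm]; exact Nat.prime_three)
  have hne : Ideal.span {z - 1} ≠ ⊥ := fun h => by rw [h, Ideal.absNorm_bot] at hnorm; omega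
  refine ⟨⟨_, hprime, hne⟩, ?_, hnorm, fun u hu => ?_⟩
  · change (3 : 𝓞 K) ∈ Ideal.span {z - 1}
    rw [e, pow_two (z - 1)]
    exact Ideal.mul_mem_left _ _ (Ideal.mul_mem_left _ _ (Ideal.mem_span_singleton_self _))
  · rw [e] at hu
    -- any prime over `3` contains it
    have h1 : z - 1 ∈ u.asIdeal := by
      rcases u.isPrime.mem_or_mem hu with h | h
      · exact absurd (Ideal.eq_top_of_isUnit_mem _ h (hzu.pow 2).neg) u.isPrime.ne_top
      · exact u.isPrime.mem_of_pow_mem _ h
    exact HeightOneSpectrum.ext ((hprime.isMaximal hne).eq_of_le u.isPrime.ne_top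
      ((Ideal.span_singleton_le_iff_mem _).mpr h1)).symm

end ThreeAdic

namespace GL2Tower

variable {K L N : Type} [Field K] [NumberField K] [Field L] [NumberField L] [Algebra K L]
  [Field N] [NumberField N] [Algebra L N] [Algebra K N] [IsScalarTower K L N]
  (T : GL2Tower K L N)

include T

/-- `[N : ℚ] = 48`. -/
lemma finrank_N : Module.finrank ℚ N = 48 := by
  have := T.galois
  rw [← IsGalois.card_aut_eq_finrank, Nat.card_congr T.e.toEquiv, Matrix.card_GL_field]
  simp [Fin.prod_univ_two]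

/-- `[N : L] = 8`. -/
lemma finrank_LN : Module.finrank L N = 8 := by
  have := T.isGalois_L
  rw [← IsGalois.card_aut_eq_finrank, ← T.C.card_mul_index, index_C,
    show Nat.card T.C = 4 by rw [C, Nat.card_zpowers, orderOf_y₁]]

/-- `[L : ℚ] = 6`. -/
lemma finrank_L : Module.finrank ℚ L = 6 := by
  have h := Module.finrank_mul_finrank ℚ L N
  rw [T.finrank_LN, T.finrank_N] at h
  omega

/-- `K` has degree two over `ℚ`. -/
lemma finrank_K : Module.finrank ℚ K = 2 := by
  have := T.isGalois_K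
  set D : (N ≃ₐ[ℚ] N) →* (ZMod 3)ˣ := Matrix.GeneralLinearGroup.det.comp T.e.toMonoidHom with hD
  have hsurj : Function.Surjective D := by
    intro u
    have : ∃ X : G₃, Matrix.GeneralLinearGroup.det X = u := by
      refine ⟨Matrix.GeneralLinearGroup.mkOfDetNeZero (mat (u : ZMod 3) 0 0 1)
        (by rw [det_mat]; simp), Units.ext ?_⟩
      rw [Matrix.GeneralLinearGroup.val_det_apply]
      change (mat (u : ZMod 3) 0 0 1).det = _
      rw [det_mat]; simp
    obtain ⟨X, hX⟩ := this
    exact ⟨T.e.symm X, by simp [hD, hX]⟩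
  have hker : Nat.card (N ≃ₐ[K] N) = Nat.card D.ker := by
    refine Nat.card_eq_of_bijective (fun g => ⟨g.restrictScalars ℚ, ?_⟩) ⟨fun g h hgh => ?_, ?_⟩
    · rw [MonoidHom.mem_ker, hD]
      exact (T.fixK _).mp fun x => g.commutes x
    · exact AlgEquiv.ext fun x => congrArg (fun f : D.ker => (f : N ≃ₐ[ℚ] N) x) hgh
    · rintro ⟨g, hg⟩
      exact ⟨AlgEquiv.ofRingEquiv (f := g.toRingEquiv) ((T.fixK g).mpr hg),
        Subtype.ext (AlgEquiv.ext fun _ => rfl)⟩
  have h2 : Nat.card (N ≃ₐ[ℚ] N) = 2 * Nat.card D.ker := by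
    rw [← D.ker.card_mul_index, Subgroup.index_ker, MonoidHom.range_eq_top.mpr hsurj,
      Subgroup.card_top, Nat.card_eq_fintype_card (α := (ZMod 3)ˣ), ZMod.card_units, mul_comm]
  have := T.galois
  rw [← hker, IsGalois.card_aut_eq_finrank, IsGalois.card_aut_eq_finrank,
    ← Module.finrank_mul_finrank ℚ K N] at h2
  exact Nat.eq_of_mul_eq_mul_right Module.finrank_pos h2

/-- `[L : K] = 3`. -/
lemma finrank_KL : Module.finrank K L = 3 := by
  have h := Module.finrank_mul_finrank ℚ K L
  rw [T.finrank_L, T.finrank_K] at h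
  omega

/-- `L` is Galois over `ℚ`. -/
lemma isGalois_QL : IsGalois ℚ L := by
  have := T.galois
  set f : L →ₐ[ℚ] N := (algebraMap L N).toRatAlgHom with hf
  set H : Subgroup (N ≃ₐ[ℚ] N) := f.fieldRange.fixingSubgroup with hH
  have hmem : ∀ g : N ≃ₐ[ℚ] N, g ∈ H ↔ InQ8 (T.e g) := fun g => by
    rw [hH, IntermediateField.mem_fixingSubgroup_iff, ← T.fixL]
    exact ⟨fun h x => h _ ⟨x, rfl⟩, by rintro h _ ⟨x, rfl⟩; exact h x⟩
  have : H.Normal := ⟨fun g hg τ => by
    rw [hmem, inQ8_iff, map_mul, map_mul, map_inv, Units.val_mul, Units.val_mul]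
    exact isQ_conj ((inQ8_iff _).mp ((hmem g).mp hg)) _⟩
  have hfix : IntermediateField.fixedField H = f.fieldRange := IsGalois.fixedField_fixingSubgroup _
  have hg : IsGalois ℚ (IntermediateField.fixedField H) := IsGalois.of_fixedField_normal_subgroup H
  rw [hfix] at hg
  let e : L ≃ₐ[ℚ] f.fieldRange := AlgEquiv.ofInjectiveField f
  exact IsGalois.of_algEquiv e.symm

/-- `L/K` is Galois. -/
lemma isGalois_KL : IsGalois K L := by
  have := T.isGalois_QL
  exact IsGalois.tower_top_of_isGalois ℚ K L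

/-- `N/M` is Galois. -/
lemma isGalois_NM : IsGalois T.Mf N := by
  have := T.isGalois_L
  exact IsGalois.tower_top_of_isGalois L T.Mf N

/-- `Gal(N/M)` is abelian. -/
lemma comm_NM (a b : N ≃ₐ[T.Mf] N) : a * b = b * a := by
  obtain ⟨i, rfl⟩ := T.mem_zpowers_gM a
  obtain ⟨j, rfl⟩ := T.mem_zpowers_gM b
  simp only [← zpow_add, add_comm]

/-- `M` is totally complex. -/
lemma totallyComplex_Mf {ζ : K} (hζ : IsPrimitiveRoot ζ 3) : IsTotallyComplex T.Mf := by
  have := totallyComplex_of_zeta hζ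
  have := isTotallyComplex_of_algebra (F := K) (K := L)
  exact isTotallyComplex_of_algebra (F := L) (K := T.Mf)

/-- Restriction to `M` is compatible with the places below. -/
lemma plUnder_σ {u : Pl T.Mf} {W : Pl N} (hW : plUnder T.Mf W = u) (g : N ≃ₐ[L] N) :
    g.restrictNormal T.Mf • u = plUnder T.Mf (g • W) := by
  subst hW
  refine HeightOneSpectrum.ext (SetLike.ext fun x => ?_)
  simp only [smul_asIdeal, asIdeal_plUnder, Ideal.under, Ideal.mem_comap,
    Ideal.mem_pointwise_smul_iff_inv_smul_mem]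
  refine iff_of_eq (congrArg (· ∈ W.asIdeal) ?_)
  rw [eq_inv_smul_iff]
  refine RingOfIntegers.ext ?_
  change g (algebraMap T.Mf N (((g.restrictNormal T.Mf)⁻¹ : T.Mf ≃ₐ[L] T.Mf) (x : T.Mf))) =
    algebraMap T.Mf N (x : T.Mf)
  rw [← AlgEquiv.restrictNormal_commutes, ← AlgEquiv.mul_apply, mul_inv_cancel, AlgEquiv.one_apply]

/-- The fixed field of `±1`. -/
def Mf' : IntermediateField T.Mf N := IntermediateField.fixedField (Subgroup.zpowers (T.gM ^ 2))

/-- `M'/M` is Galois. -/
instance isGalois_Mf' : IsGalois T.Mf T.Mf' := by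
  have := T.isGalois_NM
  have : (Subgroup.zpowers (T.gM ^ 2)).Normal :=
    ⟨fun x hx g => by rwa [T.comm_NM g x, mul_inv_cancel_right]⟩
  exact IsGalois.of_fixedField_normal_subgroup _

/-- `[M' : M] = 2`. -/
lemma finrank_Mf' : Module.finrank T.Mf T.Mf' = 2 := by
  have := T.isGalois_NM
  rw [IntermediateField.finrank_eq_fixingSubgroup_index, Mf',
    IntermediateField.fixingSubgroup_fixedField]
  have h := (Subgroup.zpowers (T.gM ^ 2)).card_mul_index
  rw [Nat.card_zpowers, orderOf_pow' T.gM two_ne_zero, T.orderOf_gM, T.card_N] at h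
  norm_num at h
  omega

/-- The generator restricts nontrivially to `M'`. -/
lemma restrict_Mf'_ne_one : T.gM.restrictNormal T.Mf' ≠ 1 := by
  intro h
  have hfix : T.gM ∈ T.Mf'.fixingSubgroup := by
    rw [IntermediateField.mem_fixingSubgroup_iff]
    intro x hx
    have := AlgEquiv.restrictNormal_commutes T.gM T.Mf' ⟨x, hx⟩
    rw [h] at this
    exact this.symm
  rw [Mf', IntermediateField.fixingSubgroup_fixedField] at hfix
  obtain ⟨k, hk⟩ := Subgroup.mem_zpowers_iff.mp hfix
  have h1 : (T.gM ^ 2) ^ k * T.gM⁻¹ = 1 := by rw [hk, mul_inv_cancel]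
  rw [← zpow_natCast, ← zpow_mul, ← zpow_sub_one, ← orderOf_dvd_iff_zpow_eq_one, T.orderOf_gM] at h1
  push_cast at h1
  omega

end GL2Tower

end Fermat.LT.Theta.Gal
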