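import Fermat.Agent.LT.Theta.Gal.Places

/-!
# The quadratic extension `M/L` and the cyclic quartic extension `N/M`

`C` is the cyclic group of order four in the quaternion group, `σ` the nontrivial automorphism of
`M/L` and `χ` the faithful character of `Gal(N/M)`.
-/

set_option autoImplicit false

noncomputable section

open scoped Classical

namespace Fermat.LT.Theta.Gal

local notation "G₃" => GL (Fin 2) (ZMod 3)
local notation "M₃" => Matrix (Fin 2) (Fin 2) (ZMod 3)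

/-- An element of order four. -/
def X₁ : G₃ := Matrix.GeneralLinearGroup.mkOfDetNeZero (mat 0 2 1 0) (by rw [det_mat]; decide)

/-- An element of order four anticommuting with `X₁`. -/
def X₂ : G₃ := Matrix.GeneralLinearGroup.mkOfDetNeZero (mat 1 1 1 2) (by rw [det_mat]; decide)

/-- The entries of `X₁`. -/
lemma coe_X₁ : (X₁ : M₃) = mat 0 2 1 0 := rfl

/-- The entries of `X₂`. -/
lemma coe_X₂ : (X₂ : M₃) = mat 1 1 1 2 := rfl

/-- `X₁` has trace `0` and determinant `1`. -/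
lemma isI_X₁ : IsI (X₁ : M₃) := by rw [coe_X₁, isI_mat]; decide

/-- `X₂` has trace `0` and determinant `1`. -/
lemma isI_X₂ : IsI (X₂ : M₃) := by rw [coe_X₂, isI_mat]; decide

/-- `X₂` is not `±X₁`. -/
lemma X₂_ne : (X₂ : M₃) ≠ X₁ ∧ (X₂ : M₃) ≠ -(X₁ : M₃) := by
  simp only [coe_X₁, coe_X₂, mat_neg, Ne, mat_inj]; decide

namespace GL2Tower

variable {K L N : Type} [Field K] [NumberField K] [Field L] [NumberField L] [Algebra K L]
  [Field N] [NumberField N] [Algebra L N] [Algebra K N] [IsScalarTower K L N]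
  (T : GL2Tower K L N)

/-- The lift of `X₁`. -/
def y₁ : N ≃ₐ[L] N := (T.exists_eL_eq (X := X₁) (Or.inr (Or.inr isI_X₁))).choose

/-- The lift of `X₂`. -/
def y₂ : N ≃ₐ[L] N := (T.exists_eL_eq (X := X₂) (Or.inr (Or.inr isI_X₂))).choose

/-- `y₁` maps to `X₁`. -/
lemma eL_y₁ : T.eL T.y₁ = X₁ := (T.exists_eL_eq (X := X₁) (Or.inr (Or.inr isI_X₁))).choose_spec

/-- `y₂` maps to `X₂`. -/
lemma eL_y₂ : T.eL T.y₂ = X₂ := (T.exists_eL_eq (X := X₂) (Or.inr (Or.inr isI_X₂))).choose_spec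

/-- The image of `y₁` has trace `0` and determinant `1`. -/
lemma isI_y₁ : IsI (T.eL T.y₁ : M₃) := by rw [eL_y₁]; exact isI_X₁

/-- `y₁²` maps to `-1`. -/
lemma coe_eL_y₁_sq : (T.eL (T.y₁ ^ 2) : M₃) = -1 := by rw [pow_two]; exact T.neg_of_isI T.isI_y₁

/-- An `L`-automorphism is determined by its matrix. -/
lemma eq_of_coe {g h : N ≃ₐ[L] N} (e : (T.eL g : M₃) = T.eL h) : g = h :=
  T.eL_injective (Units.ext e)

/-- `y₁⁴ = 1`. -/
lemma y₁_pow_four : T.y₁ ^ 4 = 1 := T.eq_of_coe (by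
  rw [show T.y₁ ^ 4 = T.y₁ ^ 2 * T.y₁ ^ 2 by rw [← pow_add], map_mul, Units.val_mul,
    T.coe_eL_y₁_sq, neg_mul_neg, one_mul, map_one, Units.val_one])

/-- The lift of `X₁` has order four. -/
lemma orderOf_y₁ : orderOf T.y₁ = 4 := by
  have : Fact (Nat.Prime 2) := ⟨Nat.prime_two⟩
  refine (orderOf_eq_prime_pow (p := 2) (n := 1) ?_ (by simpa using T.y₁_pow_four))
  intro h
  have := T.coe_eL_y₁_sq
  rw [show (2 : ℕ) ^ 1 = 2 from rfl] at h
  rw [h, map_one, Units.val_one] at this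
  exact neg_one_ne_one this.symm

/-- `y₁³` maps to `-X₁`. -/
lemma coe_eL_y₁_cube : (T.eL (T.y₁ ^ 3) : M₃) = -(X₁ : M₃) := by
  rw [show T.y₁ ^ 3 = T.y₁ ^ 2 * T.y₁ from pow_succ _ _, map_mul, Units.val_mul, T.coe_eL_y₁_sq,
    eL_y₁, neg_mul, one_mul]

/-- The cyclic group of order four. -/
def C : Subgroup (N ≃ₐ[L] N) := Subgroup.zpowers T.y₁

/-- The cyclic subgroup consists of the lifts of `±1` and `±X₁`. -/
lemma mem_C_iff {g : N ≃ₐ[L] N} : g ∈ T.C ↔ (T.eL g : M₃) = 1 ∨ (T.eL g : M₃) = -1 ∨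
    (T.eL g : M₃) = X₁ ∨ (T.eL g : M₃) = -(X₁ : M₃) := by
  constructor
  · intro h
    rw [C, ← mem_powers_iff_mem_zpowers] at h
    obtain ⟨n, rfl⟩ := h
    beta_reduce
    rw [← pow_mod_orderOf, T.orderOf_y₁]
    have := Nat.mod_lt n (show 0 < 4 by norm_num)
    interval_cases n % 4
    · exact Or.inl (by simp)
    · exact Or.inr (Or.inr (Or.inl (by rw [pow_one, eL_y₁])))
    · exact Or.inr (Or.inl T.coe_eL_y₁_sq)
    · exact Or.inr (Or.inr (Or.inr T.coe_eL_y₁_cube))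
  · rintro (h | h | h | h)
    · rw [T.eq_of_coe (g := g) (h := 1) (by rw [h, map_one, Units.val_one])]; exact one_mem _
    · rw [T.eq_of_coe (g := g) (h := T.y₁ ^ 2) (by rw [h, T.coe_eL_y₁_sq])]
      exact Subgroup.npow_mem_zpowers _ _
    · rw [T.eq_of_coe (g := g) (h := T.y₁) (by rw [h, eL_y₁])]; exact Subgroup.mem_zpowers _
    · rw [T.eq_of_coe (g := g) (h := T.y₁ ^ 3) (by rw [h, T.coe_eL_y₁_cube])]
      exact Subgroup.npow_mem_zpowers _ _

/-- `y₂` is outside the cyclic subgroup. -/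
lemma y₂_not_mem : T.y₂ ∉ T.C := by
  rw [mem_C_iff, eL_y₂]
  simp only [coe_X₁, coe_X₂, mat_one, mat_neg, mat_inj]
  decide

/-- Outside the cyclic subgroup the image has trace `0` and determinant `1`. -/
lemma isI_of_not_mem {g : N ≃ₐ[L] N} (h : g ∉ T.C) : IsI (T.eL g : M₃) := by
  rcases T.eL_isQ g with e | e | e
  · exact absurd (T.mem_C_iff.mpr (Or.inl e)) h
  · exact absurd (T.mem_C_iff.mpr (Or.inr (Or.inl e))) h
  · exact e

/-- Multiplying by `y₂` moves the other coset into the cyclic subgroup. -/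
lemma mul_y₂_mem_of_not_mem {g : N ≃ₐ[L] N} (h : g ∉ T.C) : g * T.y₂ ∈ T.C := by
  rw [mem_C_iff, map_mul, Units.val_mul, eL_y₂]
  rw [mem_C_iff] at h
  push Not at h
  have hX : (X₁ : M₃) * X₂ * X₂ = -(X₁ : M₃) := by
    rw [mul_assoc, isI_mul_self isI_X₂, mul_neg, mul_one]
  rcases generate isI_X₁ isI_X₂ X₂_ne.1 X₂_ne.2 (T.isI_of_not_mem (by
    rw [mem_C_iff]; push Not; exact h)) with e | e | e | e | e | e
  · exact absurd e h.2.2.1
  · exact absurd e h.2.2.2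
  · exact Or.inr (Or.inl (by rw [e, isI_mul_self isI_X₂]))
  · exact Or.inl (by rw [e, neg_mul, isI_mul_self isI_X₂, neg_neg])
  · exact Or.inr (Or.inr (Or.inr (by rw [e, hX])))
  · exact Or.inr (Or.inr (Or.inl (by rw [e, neg_mul, hX, neg_neg])))

/-- The cyclic subgroup has index two. -/
lemma index_C : T.C.index = 2 := by
  rw [Subgroup.index_eq_two_iff]
  refine ⟨T.y₂, fun b => ?_⟩
  by_cases hb : b ∈ T.C
  · exact Or.inr ⟨hb, fun h => T.y₂_not_mem ((T.C.mul_mem_cancel_left hb).mp h)⟩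
  · exact Or.inl ⟨T.mul_y₂_mem_of_not_mem hb, hb⟩

/-- `M`. -/
def Mf : IntermediateField L N := IntermediateField.fixedField T.C

/-- The fixing subgroup of `M` is the cyclic subgroup. -/
lemma fixingSubgroup_Mf : T.Mf.fixingSubgroup = T.C := IntermediateField.fixingSubgroup_fixedField _

/-- The cyclic subgroup is normal. -/
instance normal_C : T.C.Normal := Subgroup.normal_of_index_eq_two T.index_C

/-- `M/L` is Galois. -/
instance isGalois_Mf : IsGalois L T.Mf := by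
  have := T.isGalois_L
  exact IsGalois.of_fixedField_normal_subgroup T.C

/-- `[M : L] = 2`. -/
lemma finrank_Mf : Module.finrank L T.Mf = 2 := by
  have := T.isGalois_L
  rw [IntermediateField.finrank_eq_fixingSubgroup_index, fixingSubgroup_Mf, T.index_C]

/-- The nontrivial automorphism of `M/L`. -/
def σ : T.Mf ≃ₐ[L] T.Mf := T.y₂.restrictNormal T.Mf

/-- The cyclic subgroup is exactly what fixes `M`. -/
lemma restrict_eq_one_iff_mem (g : N ≃ₐ[L] N) : g.restrictNormal T.Mf = 1 ↔ g ∈ T.C := by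
  rw [← fixingSubgroup_Mf, IntermediateField.mem_fixingSubgroup_iff]
  constructor
  · intro h x hx
    have := AlgEquiv.restrictNormal_commutes g T.Mf ⟨x, hx⟩
    rw [h] at this
    exact this.symm
  · intro h
    refine AlgEquiv.ext fun x => Subtype.ext ?_
    exact (AlgEquiv.restrictNormal_commutes g T.Mf x).trans (h x x.2)

/-- `σ` is nontrivial. -/
lemma σ_ne_one : T.σ ≠ 1 := fun h => T.y₂_not_mem ((T.restrict_eq_one_iff_mem _).mp h)

/-- A generator of `Gal(N/M)`. -/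
def gM : N ≃ₐ[T.Mf] N :=
  AlgEquiv.ofRingEquiv (f := T.y₁.toRingEquiv) fun x => by
    have hx : T.y₁ ∈ T.Mf.fixingSubgroup := by
      rw [fixingSubgroup_Mf]; exact Subgroup.mem_zpowers _
    exact (IntermediateField.mem_fixingSubgroup_iff _ _).mp hx _ x.2

/-- The generator is `y₁` over `L`. -/
lemma gM_restrictScalars : T.gM.restrictScalars L = T.y₁ := AlgEquiv.ext fun _ => rfl

/-- `Gal(N/M) → Gal(N/L)`. -/
def resM : (N ≃ₐ[T.Mf] N) →* (N ≃ₐ[L] N) where
  toFun g := g.restrictScalars L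
  map_one' := rfl
  map_mul' _ _ := rfl

/-- `resM` is injective. -/
lemma resM_injective : Function.Injective T.resM := fun _ _ hgh =>
  AlgEquiv.ext fun x => congrArg (fun f : N ≃ₐ[L] N => f x) hgh

/-- `resM` lands in the cyclic subgroup. -/
lemma resM_mem (g : N ≃ₐ[T.Mf] N) : T.resM g ∈ T.C := by
  rw [← fixingSubgroup_Mf, IntermediateField.mem_fixingSubgroup_iff]
  exact fun x hx => g.commutes ⟨x, hx⟩

/-- The chosen generator generates `Gal(N/M)`. -/
lemma mem_zpowers_gM (g : N ≃ₐ[T.Mf] N) : g ∈ Subgroup.zpowers T.gM := by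
  obtain ⟨k, hk⟩ := T.resM_mem g
  refine ⟨k, T.resM_injective ?_⟩
  change T.resM (T.gM ^ k) = _
  rw [map_zpow]
  exact hk

/-- `Gal(N/M)` is cyclic. -/
lemma isCyclic_N : IsCyclic (N ≃ₐ[T.Mf] N) := ⟨⟨T.gM, T.mem_zpowers_gM⟩⟩

/-- The generator has order four. -/
lemma orderOf_gM : orderOf T.gM = 4 := by
  rw [← orderOf_injective T.resM T.resM_injective]
  change orderOf (T.gM.restrictScalars L) = 4
  rw [gM_restrictScalars, orderOf_y₁]

/-- `Gal(N/M)` has four elements. -/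
lemma card_N : Nat.card (N ≃ₐ[T.Mf] N) = 2 ^ 2 := by
  rw [← orderOf_eq_card_of_forall_mem_zpowers T.mem_zpowers_gM, orderOf_gM]; norm_num

/-- `i` as a unit. -/
def unitI : ℂˣ := Units.mk0 Complex.I Complex.I_ne_zero

/-- `i² = -1`. -/
lemma unitI_sq : unitI ^ 2 = -1 := Units.ext (by simp [unitI])

/-- `i⁴ = 1`. -/
lemma unitI_pow_four : unitI ^ 4 = 1 := by
  rw [show (4 : ℕ) = 2 * 2 from rfl, pow_mul, unitI_sq, neg_one_sq]

/-- `i` has order four. -/
lemma orderOf_unitI : orderOf unitI = 4 := by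
  have : Fact (Nat.Prime 2) := ⟨Nat.prime_two⟩
  refine (orderOf_eq_prime_pow (p := 2) (n := 1) ?_ (by simpa using unitI_pow_four))
  rw [pow_one, unitI_sq]
  intro h
  have := congrArg (fun u : ℂˣ => (u : ℂ)) h
  norm_num at this

/-- The faithful character of `Gal(N/M)`. -/
def χ : (N ≃ₐ[T.Mf] N) →* ℂˣ :=
  monoidHomOfForallMemZpowers T.mem_zpowers_gM (g' := unitI) (by rw [orderOf_unitI, orderOf_gM])

/-- The character sends the generator to `i`. -/
lemma χ_gM : T.χ T.gM = unitI := monoidHomOfForallMemZpowers_apply_gen _ _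

/-- The character sends the powers of the generator to powers of `i`. -/
lemma χ_eq (g : N ≃ₐ[T.Mf] N) : ∃ n, n < 4 ∧ g = T.gM ^ n ∧ T.χ g = unitI ^ n := by
  obtain ⟨n, rfl⟩ := (mem_powers_iff_mem_zpowers).mpr (T.mem_zpowers_gM g)
  refine ⟨n % 4, Nat.mod_lt _ (by norm_num), ?_, ?_⟩
  · change T.gM ^ n = _
    conv_lhs => rw [← pow_mod_orderOf, T.orderOf_gM]
  · change T.χ (T.gM ^ n) = _
    rw [← pow_mod_orderOf, T.orderOf_gM, map_pow, χ_gM]

/-- The character takes fourth roots of unity as values. -/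
lemma χ_pow_four (g : N ≃ₐ[T.Mf] N) : T.χ g ^ 4 = 1 := by
  obtain ⟨n, -, -, h⟩ := T.χ_eq g
  rw [h, ← pow_mul, mul_comm, pow_mul, unitI_pow_four, one_pow]

/-- The character is `-1` on the lift of `-1`. -/
lemma χ_of_neg {g : N ≃ₐ[T.Mf] N} (h : (T.eL (T.resM g) : M₃) = -1) : T.χ g = -1 := by
  have : g = T.gM ^ 2 := T.resM_injective (T.eq_of_coe (by
    rw [h, map_pow]
    exact (T.gM_restrictScalars ▸ T.coe_eL_y₁_sq).symm))
  rw [this, map_pow, χ_gM, unitI_sq]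

/-- The trace of the lift on `C`. -/
lemma liftTr_eq_χ (g : N ≃ₐ[T.Mf] N) :
    ((liftTr (T.eL (T.resM g)) : ℤ) : ℂ) = (T.χ g : ℂ) + ((T.χ g)⁻¹ : ℂˣ) := by
  obtain ⟨n, hn, rfl, hχ⟩ := T.χ_eq g
  rw [hχ, map_pow, show T.resM T.gM = T.y₁ from T.gM_restrictScalars]
  interval_cases n
  · rw [pow_zero, map_one, liftTr_one]; norm_num
  · rw [pow_one, liftTr_isI T.isI_y₁]; simp [unitI]
  · rw [liftTr_neg T.coe_eL_y₁_sq, unitI_sq]; norm_num
  · rw [liftTr_isI (by rw [T.coe_eL_y₁_cube]; exact isI_neg isI_X₁),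
      show (3 : ℕ) = 2 + 1 from rfl, pow_add, unitI_sq]
    simp [unitI]

/-- Conjugation by an element outside `C` inverts `C`. -/
lemma conj_C {τ : N ≃ₐ[L] N} (hτ : τ ∉ T.C) {g : N ≃ₐ[L] N} (hg : g ∈ T.C) :
    τ * g * τ⁻¹ = g⁻¹ := by
  have hI := T.isI_of_not_mem hτ
  have hne : (T.eL τ : M₃) ≠ X₁ ∧ (T.eL τ : M₃) ≠ -(X₁ : M₃) :=
    ⟨fun e => hτ (T.mem_C_iff.mpr (Or.inr (Or.inr (Or.inl e)))),
      fun e => hτ (T.mem_C_iff.mpr (Or.inr (Or.inr (Or.inr e))))⟩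
  have hgen : τ * T.y₁ * τ⁻¹ = T.y₁⁻¹ := by
    rw [mul_inv_eq_iff_eq_mul]
    refine T.eq_of_coe ?_
    have hinv : (T.eL T.y₁⁻¹ : M₃) = -(X₁ : M₃) := by
      rw [← T.coe_eL_y₁_cube, show T.y₁⁻¹ = T.y₁ ^ 3 from
        inv_eq_of_mul_eq_one_right (by rw [← pow_succ', T.y₁_pow_four])]
    rw [map_mul, map_mul, Units.val_mul, Units.val_mul, hinv, eL_y₁,
      anticomm isI_X₁ hI hne.1 hne.2, neg_mul]
  obtain ⟨k, rfl⟩ := hg
  rw [← conj_zpow, hgen, inv_zpow]

end GL2Tower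

end Fermat.LT.Theta.Gal
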