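import Fermat.Agent.LT.Theta.Gal.KFacts

/-!
# Decomposition of `3` in `L` and `M`

`ncard_over3` counts three places of `L`; `cases3` says that `M/L` is inert where `C` is inertia
and ramified elsewhere.
-/

set_option autoImplicit false
set_option linter.unusedSectionVars false

noncomputable section

open NumberField Fermat.CFT
open scoped Pointwise

namespace Fermat.LT.Theta.Gal

local notation "G₃" => GL (Fin 2) (ZMod 3)
local notation "M₃" => Matrix (Fin 2) (Fin 2) (ZMod 3)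

/-- A place lies over `3` exactly when the place below does. -/
lemma three_mem_plUnder {F E : Type} [Field F] [NumberField F] [Field E] [NumberField E]
    [Algebra F E] {W : Pl E} : (3 : 𝓞 F) ∈ (plUnder F W).asIdeal ↔ (3 : 𝓞 E) ∈ W.asIdeal := by
  rw [asIdeal_plUnder, Ideal.under, Ideal.mem_comap, map_ofNat]

namespace QTower

open GL2Tower

variable {K L N : Type} [Field K] [NumberField K] [Field L] [NumberField L] [Algebra K L]
  [Field N] [NumberField N] [Algebra L N] [Algebra K N] [IsScalarTower K L N]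
  (T : QTower K L N) {ζ : K} (hζ : IsPrimitiveRoot ζ 3)

include T hζ

/-- Places of `L` over `3` have three residues. -/
lemma resCard_L {w : Pl L} (h3 : (3 : 𝓞 L) ∈ w.asIdeal) : resCard w = 3 := by
  have := T.isGalois_KL
  obtain ⟨v, -, hv, hu⟩ := exists_v3 T.finrank_K hζ
  obtain ⟨h1, h2⟩ := stabilizer_card_eq (K := K) w
  rw [Subgroup.card_eq_one.mpr ((Subgroup.eq_bot_iff_forall _).mpr fun s hs =>
    T.eq_one_of_fix h3 (MulAction.mem_stabilizer_iff.mp hs))] at h1
  rw [h2, Nat.eq_one_of_mul_eq_one_left h1.symm, pow_one, hu _ (three_mem_plUnder.mpr h3), hv]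

/-- There are three places of `L` over `3`. -/
lemma ncard_over3 : {w : Pl L | (3 : 𝓞 L) ∈ w.asIdeal}.ncard = 3 := by
  have := T.isGalois_KL
  obtain ⟨v, hv3, -, hu⟩ := exists_v3 T.finrank_K hζ
  obtain ⟨w₀, hw₀⟩ := CFT.exists_plUnder_eq (F := L) v
  have h30 : (3 : 𝓞 L) ∈ w₀.asIdeal := three_mem_plUnder.mp (hw₀.symm ▸ hv3)
  rw [show {w : Pl L | (3 : 𝓞 L) ∈ w.asIdeal} = Set.range fun s : L ≃ₐ[K] L => s • w₀ from
    Set.ext fun w => ⟨fun hw =>
      exists_smul_eq_of_plUnder_eq (hw₀.trans (hu _ (three_mem_plUnder.mpr hw)).symm), by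
      rintro ⟨s, rfl⟩
      change (3 : 𝓞 L) ∈ (s • w₀).asIdeal
      rw [smul_asIdeal]
      have h := Ideal.smul_mem_pointwise_smul s _ _ h30
      rwa [show s • (3 : 𝓞 L) = 3 from map_ofNat (MulSemiringAction.toRingHom _ (𝓞 L) s) 3] at h⟩,
    Set.ncard_range_of_injective, IsGalois.card_aut_eq_finrank, T.finrank_KL]
  intro s t hst
  have h : (t⁻¹ * s) • w₀ = w₀ := by rw [mul_smul, show s • w₀ = t • w₀ from hst, inv_smul_smul]
  exact (inv_mul_eq_one.mp (T.eq_one_of_fix h30 h)).symm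

/-- The automorphisms of `M/L` fix every place over `3`. -/
lemma smul_Mf {u : Pl T.Mf} (h3 : (3 : 𝓞 T.Mf) ∈ u.asIdeal) (g : T.Mf ≃ₐ[L] T.Mf) : g • u = u := by
  have := T.isGalois_L
  obtain ⟨W, hW⟩ := CFT.exists_plUnder_eq (F := N) u
  obtain ⟨g', rfl⟩ := AlgEquiv.restrictNormalHom_surjective N g
  have h3W : (3 : 𝓞 N) ∈ W.asIdeal := three_mem_plUnder.mp (hW.symm ▸ h3)
  change g'.restrictNormal T.Mf • u = u
  rw [T.plUnder_σ hW g', T.smul_eq_self h3W (T.resCard_L hζ (three_mem_plUnder.mpr h3W)) g', hW]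

/-- Where `C` is inertia, `M/L` is inert; elsewhere it is ramified. -/
theorem cases3 {W : Pl N} (h3 : (3 : 𝓞 N) ∈ W.asIdeal) {y : N ≃ₐ[L] N} (hy : Congr y W 1)
    (hyI : IsI (T.eL y : M₃)) :
    (y ∈ T.C → plRamIdx L (plUnder T.Mf W) = 1 ∧ resCard (plUnder T.Mf W) = 9) ∧
      (y ∉ T.C → plRamIdx L (plUnder T.Mf W) = 2 ∧ resCard (plUnder T.Mf W) = 3) := by
  have := T.isGalois_L
  set u := plUnder T.Mf W with hu
  have h3u : (3 : 𝓞 T.Mf) ∈ u.asIdeal := three_mem_plUnder.mpr h3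
  have hq := T.resCard_L hζ (three_mem_plUnder.mpr h3u : (3 : 𝓞 L) ∈ (plUnder L u).asIdeal)
  have hc := quadratic_cases (K := L) (w := u) T.finrank_Mf (fun g => T.smul_Mf hζ h3u g)
  rw [hq] at hc
  refine ⟨fun hyC => ?_, fun hyC => ?_⟩
  · rcases hc with ⟨he, hf⟩ | ⟨-, hf⟩
    · exact ⟨he, by rw [hf]; norm_num⟩
    exfalso
    have : IsGalois T.Mf N := IsGalois.tower_top_of_isGalois L T.Mf N
    have hyy : (T.eL (y * y) : M₃) = -1 := T.neg_of_isI hyI
    -- if `y` lies in `C`, all of `Gal(N/M)` is inertia at `W`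
    have hin : ∀ g : N ≃ₐ[T.Mf] N, Congr g W 1 := by
      intro g
      have hg := T.mem_C_iff.mp (T.resM_mem g)
      have hyX : (T.eL y : M₃) = X₁ ∨ (T.eL y : M₃) = -(X₁ : M₃) := by
        rcases T.mem_C_iff.mp hyC with e | e | e | e
        · exact absurd (e ▸ hyI.2) (by rw [Matrix.trace_one]; decide)
        · exact absurd (e ▸ hyI.2) (by rw [Matrix.trace_neg, Matrix.trace_one]; decide)
        · exact Or.inl e
        · exact Or.inr e
      obtain ⟨k, hk⟩ : ∃ k : ℕ, T.resM g = y ^ k := by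
        have e3 : (T.eL (y ^ 3) : M₃) = -(T.eL y : M₃) := by
          rw [pow_succ, map_mul, Units.val_mul, pow_two, hyy, neg_mul, one_mul]
        rcases hg with e | e | e | e
        · exact ⟨0, T.eq_of_coe (by rw [e, pow_zero, map_one, Units.val_one])⟩
        · exact ⟨2, T.eq_of_coe (by rw [e, pow_two, hyy])⟩
        · rcases hyX with e' | e'
          · exact ⟨1, T.eq_of_coe (by rw [e, pow_one, e'])⟩
          · exact ⟨3, T.eq_of_coe (by rw [e, e3, e', neg_neg])⟩
        · rcases hyX with e' | e'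
          · exact ⟨3, T.eq_of_coe (by rw [e, e3, e'])⟩
          · exact ⟨1, T.eq_of_coe (by rw [e, pow_one, e'])⟩
      intro x
      have h := hy.inert_pow k x
      rw [← hk] at h
      exact h
    have hWu := resCard_eq_of_stabilizer_inert (K := T.Mf) W fun g _ => hin g
    rw [← hu, hf] at hWu
    have h4 : y ^ 4 = 1 := T.eq_of_coe (by
      rw [show (4 : ℕ) = 2 + 2 from rfl, pow_add, pow_two, map_mul, Units.val_mul, hyy, neg_mul_neg,
        one_mul, map_one, Units.val_one])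
    have h2 := hy.inert_pow_eq_one h4 (not_mem_of_three h3 (by norm_num))
    rw [hWu] at h2
    rw [← pow_two, show y ^ 2 = 1 from h2, map_one, Units.val_one] at hyy
    exact neg_one_ne_one hyy.symm
  · rcases hc with ⟨he, -⟩ | h
    · exfalso
      refine plRamIdx_ne_one_of_inert (K := L) (hy.restrictNormal (N := T.Mf)) ?_ he
      exact fun h => hyC ((T.restrict_eq_one_iff_mem y).mp h)
    · exact ⟨h.1, h.2⟩

omit hζ in
/-- Every element of order four is inertia at some place over `3`. -/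
lemma exists_place_tame {W : Pl N} (h3 : (3 : 𝓞 N) ∈ W.asIdeal) {X : G₃} (hX : IsI (X : M₃)) :
    ∃ (W' : Pl N) (y : N ≃ₐ[L] N), (3 : 𝓞 N) ∈ W'.asIdeal ∧ Congr y W' 1 ∧ T.eL y = X := by
  obtain ⟨y, hy, hyI⟩ := T.exists_tame h3
  obtain ⟨Y, hY⟩ := conjugate hyI hX
  set g := T.e.symm Y with hg
  obtain ⟨y', hy'⟩ := T.exists_eL_eq (X := X) (Or.inr (Or.inr hX))
  refine ⟨g • W, y', ?_, (T.congr_iff_eq ?_).mp ((congr_restrict.mpr hy).conj g), hy'⟩
  · rw [smul_asIdeal]
    have h := Ideal.smul_mem_pointwise_smul g _ _ h3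
    rwa [show g • (3 : 𝓞 N) = 3 from map_ofNat (MulSemiringAction.toRingHom _ (𝓞 N) g) 3] at h
  · rw [hy', map_mul, map_mul, map_inv, hg, MulEquiv.apply_symm_apply, eq_mul_inv_iff_mul_eq]
    exact Units.ext hY.symm

omit T hζ in
/-- `N` has a place over `3`. -/
lemma exists_over3 : ∃ W : Pl N, (3 : 𝓞 N) ∈ W.asIdeal := by
  have hne : Ideal.span {(3 : 𝓞 N)} ≠ ⊤ := by
    intro h
    have h' := congrArg Ideal.absNorm h
    rw [Ideal.absNorm_span_singleton, Ideal.absNorm_top,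
      show (3 : 𝓞 N) = algebraMap ℤ (𝓞 N) 3 from (map_ofNat _ 3).symm, Algebra.norm_algebraMap,
      RingOfIntegers.rank, Int.natAbs_pow] at h'
    have h0 := Nat.pow_eq_one.mp h'
    rcases h0 with h0 | h0
    · norm_num at h0
    · exact (Module.finrank_pos (R := ℚ) (M := N)).ne' h0
  obtain ⟨P, hP, hle⟩ := Ideal.exists_le_maximal _ hne
  refine ⟨⟨P, hP.isPrime, fun h => ?_⟩, hle (Ideal.mem_span_singleton_self _)⟩
  have := hle (Ideal.mem_span_singleton_self _)
  rw [h, Ideal.mem_bot] at this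
  norm_num at this

/-- Some place over `3` ramifies in `M/L`. -/
lemma exists_ramified3 : ∃ u : Pl T.Mf, (3 : 𝓞 T.Mf) ∈ u.asIdeal ∧ plRamIdx L u = 2 := by
  obtain ⟨W, hW⟩ := exists_over3 (N := N)
  obtain ⟨W', y, h3, hy, he⟩ := T.exists_place_tame hW isI_X₂
  have hyI : IsI (T.eL y : M₃) := by rw [he]; exact isI_X₂
  refine ⟨plUnder T.Mf W', three_mem_plUnder.mpr h3, ((T.cases3 hζ h3 hy hyI).2 ?_).1⟩
  rw [T.eq_of_coe (g := y) (h := T.y₂) (by rw [he, eL_y₂])]
  exact T.y₂_not_mem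

end QTower

end Fermat.LT.Theta.Gal
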