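import Fermat.Agent.LT.Theta.Gal.Tower

/-!
# The places over `3`, and the absence of ramification elsewhere

`inQ8_of_fix` puts decomposition elements of determinant one in `Q₈`; `plRamIdx_eq_one` says that
`N/L` is unramified away from `3`.
-/

set_option autoImplicit false

noncomputable section

open NumberField IsDedekindDomain Fermat.CFT
open scoped Pointwise Classical

namespace Fermat.LT.Theta.Gal

local notation "G₃" => GL (Fin 2) (ZMod 3)
local notation "M₃" => Matrix (Fin 2) (Fin 2) (ZMod 3)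

variable {K L N : Type} [Field K] [NumberField K] [Field L] [NumberField L] [Algebra K L]
  [Field N] [NumberField N] [Algebra L N] [Algebra K N] [IsScalarTower K L N]

omit [NumberField N] in
/-- A number prime to `3` is a unit at places over `3`. -/
lemma not_mem_of_three {W : Pl N} (h3 : (3 : 𝓞 N) ∈ W.asIdeal) {r : ℕ} (hr : Nat.Coprime r 3) :
    ((r : ℕ) : 𝓞 N) ∉ W.asIdeal := by
  intro h
  obtain ⟨a, b, hab⟩ := Int.isCoprime_iff_nat_coprime.mpr
    (show Nat.Coprime (r : ℤ).natAbs (3 : ℤ).natAbs by simpa using hr)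
  refine W.isPrime.ne_top ((Ideal.eq_top_iff_one _).mpr ?_)
  have h1 := add_mem (W.asIdeal.mul_mem_left (a : 𝓞 N) h) (W.asIdeal.mul_mem_left (b : 𝓞 N) h3)
  have hab' := congrArg (fun z : ℤ => (z : 𝓞 N)) hab
  push_cast at hab'
  rwa [hab'] at h1

/-- Congruences do not depend on the base field. -/
lemma congr_restrict {g : N ≃ₐ[L] N} {W : Pl N} {q : ℕ} :
    Congr (g.restrictScalars ℚ) W q ↔ Congr g W q := ⟨fun h x => h x, fun h x => h x⟩

namespace GL2Tower

variable (T : GL2Tower K L N)

/-- The image of an `L`-automorphism. -/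
def eL : (N ≃ₐ[L] N) →* G₃ where
  toFun g := T.e (g.restrictScalars ℚ)
  map_one' := by rw [← map_one T.e]; rfl
  map_mul' g h := by rw [← map_mul]; rfl

/-- The value of `eL`. -/
lemma eL_apply (g : N ≃ₐ[L] N) : T.eL g = T.e (g.restrictScalars ℚ) := rfl

/-- `eL` is injective. -/
lemma eL_injective : Function.Injective T.eL := fun _ _ hgh =>
  AlgEquiv.ext fun x => congrArg (fun f : N ≃ₐ[ℚ] N => f x) (T.e.injective hgh)

/-- The image of `eL` lies in `Q₈`. -/
lemma eL_isQ (g : N ≃ₐ[L] N) : IsQ (T.eL g : M₃) := by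
  rw [← inQ8_iff, eL_apply, ← T.fixL]
  exact fun x => g.commutes x

/-- Every element of `Q₈` is the image of an `L`-automorphism. -/
lemma exists_eL_eq {X : G₃} (hX : IsQ (X : M₃)) : ∃ g : N ≃ₐ[L] N, T.eL g = X := by
  have hfix := (T.fixL (T.e.symm X)).mpr (by rw [inQ8_iff, MulEquiv.apply_symm_apply]; exact hX)
  refine ⟨AlgEquiv.ofRingEquiv (f := (T.e.symm X).toRingEquiv) hfix, ?_⟩
  rw [eL_apply]
  refine Eq.trans ?_ (T.e.apply_symm_apply X)
  exact congrArg T.e (AlgEquiv.ext fun x => rfl)

include T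

/-- `N/L` is Galois. -/
lemma isGalois_L : IsGalois L N := by
  have := T.galois
  exact IsGalois.tower_top_of_isGalois ℚ L N

/-- `N/K` is Galois. -/
lemma isGalois_K : IsGalois K N := by
  have := T.galois
  exact IsGalois.tower_top_of_isGalois ℚ K N

/-- Congruences transported between automorphisms over `ℚ` and over `L`. -/
lemma congr_iff_eq {g : N ≃ₐ[ℚ] N} {h : N ≃ₐ[L] N} {W : Pl N} {q : ℕ} (he : T.eL h = T.e g) :
    Congr g W q ↔ Congr h W q := by
  rw [← congr_restrict (g := h), show h.restrictScalars ℚ = g from T.e.injective he]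

/-- A square of an element of order four maps to `-1`. -/
lemma neg_of_isI {g : N ≃ₐ[L] N} (h : IsI (T.eL g : M₃)) : (T.eL (g * g) : M₃) = -1 := by
  rw [map_mul, Units.val_mul, isI_mul_self h]

/-- Determinant one means fixing `K`. -/
lemma det_e_eq_one_iff (g : N ≃ₐ[ℚ] N) : (T.e g : M₃).det = 1 ↔
    ∀ x : K, g (algebraMap K N x) = algebraMap K N x := by
  rw [T.fixK, Units.ext_iff, Units.val_one, Matrix.GeneralLinearGroup.val_det_apply]

end GL2Tower

namespace QTower

variable (T : QTower K L N)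

include T

/-- The generator of inertia inside `Gal(N/L)` at a place over `3`. -/
lemma exists_tame {W : Pl N} (h3 : (3 : 𝓞 N) ∈ W.asIdeal) :
    ∃ y : N ≃ₐ[L] N, Congr y W 1 ∧ IsI (T.eL y : M₃) := by
  obtain ⟨g, hg, h8⟩ := T.inertia3 W h3
  set X := T.e g with hX
  have hne : (X : M₃) * X * (X * X) ≠ 1 := by
    intro h
    have : X ^ 4 = 1 := Units.ext (by
      rw [show X ^ 4 = X * X * (X * X) by simp only [pow_succ, pow_zero, one_mul, mul_assoc],
                                            Units.val_mul, Units.val_mul, h, Units.val_one])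
    have := Nat.le_of_dvd (by norm_num) (orderOf_dvd_of_pow_eq_one this)
    omega
  have hone : ((X : M₃) * X * (X * X)) * ((X : M₃) * X * (X * X)) = 1 := by
    have : X ^ 8 = 1 := h8 ▸ pow_orderOf_eq_one X
    have h := congrArg (fun u : G₃ => (u : M₃)) this
    simp only [Units.val_one] at h
    rw [← h, show X ^ 8 = X * X * (X * X) *
      (X * X * (X * X)) by simp only [pow_succ, pow_zero, one_mul, mul_assoc]]
    simp [Units.val_mul]
  obtain ⟨-, hI⟩ := order8 _ hne hone
  obtain ⟨y, hy⟩ := T.exists_eL_eq (X := X * X) (Or.inr (Or.inr (by rwa [Units.val_mul])))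
  refine ⟨y, (T.congr_iff_eq (g := g * g) (by rw [hy, map_mul])).mp (hg.inert_mul hg), ?_⟩
  rw [hy, Units.val_mul]; exact hI

/-- Inertia in `Gal(N/L)` over `3` is cyclic of order four. -/
lemma inert_classify {W : Pl N} (h3 : (3 : 𝓞 N) ∈ W.asIdeal) {y g : N ≃ₐ[L] N}
    (hy : Congr y W 1) (hyI : IsI (T.eL y : M₃)) (hg : Congr g W 1) :
    (T.eL g : M₃) = 1 ∨ (T.eL g : M₃) = -1 ∨ (T.eL g : M₃) = T.eL y ∨
      (T.eL g : M₃) = -(T.eL y : M₃) := by
  rcases T.eL_isQ g with h | h | h
  · exact Or.inl h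
  · exact Or.inr (Or.inl h)
  by_contra hne
  push Not at hne
  have ha := anticomm hyI h hne.2.2.1 hne.2.2.2
  have hcm : (T.eL ((g * y)⁻¹ * (y * g)) : M₃) = -1 := by
    have h' : (T.eL (y * g) : M₃) = -(T.eL (g * y) : M₃) := by
      rw [map_mul, map_mul, Units.val_mul, Units.val_mul, ha, neg_neg]
    rw [map_mul, Units.val_mul, h', mul_neg, ← Units.val_mul, ← map_mul, inv_mul_cancel, map_one,
      Units.val_one]
  have hpow : ((g * y)⁻¹ * (y * g)) ^ 2 = 1 := by
    apply T.eL_injective
    rw [map_pow, map_one]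
    exact Units.ext (by rw [Units.val_pow_eq_pow_val, hcm, neg_one_sq, Units.val_one])
  have hcomm := hy.inert_comm hg (r := 2) hpow (not_mem_of_three h3 (by norm_num))
  rw [hcomm, inv_mul_cancel, map_one, Units.val_one] at hcm
  exact neg_one_ne_one hcm.symm

/-- A decomposition element of determinant one lies in `Q₈`. -/
lemma inQ8_of_fix {W : Pl N} (h3 : (3 : 𝓞 N) ∈ W.asIdeal) {g : N ≃ₐ[ℚ] N} (hg : g • W = W)
    (hdet : (T.e g : M₃).det = 1) : InQ8 (T.e g) := by
  rw [inQ8_iff]
  by_contra hQ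
  rw [IsQ] at hQ
  push Not at hQ
  obtain ⟨y, hy, hyI⟩ := T.exists_tame h3
  obtain ⟨y', hy'⟩ := T.exists_eL_eq (X := T.e g * T.eL y * (T.e g)⁻¹)
    (Or.inr (Or.inr (by rw [Units.val_mul, Units.val_mul]; exact isI_conj hyI _)))
  have hc := (congr_restrict.mpr hy).conj g
  rw [hg] at hc
  have hy'W : Congr y' W 1 := (T.congr_iff_eq (by rw [hy', map_mul, map_mul, map_inv]; rfl)).mp hc
  obtain ⟨n1, n2⟩ := not_normalise hyI hdet hQ.2.2 hQ.1 hQ.2.1
  have hconj : (T.eL y' : M₃) * (T.e g : M₃) = (T.e g : M₃) * (T.eL y : M₃) := by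
    rw [hy', ← Units.val_mul, inv_mul_cancel_right, Units.val_mul]
  have hyI' : IsI (T.eL y' : M₃) := by
    rw [hy', Units.val_mul, Units.val_mul]; exact isI_conj hyI _
  rcases T.inert_classify h3 hy hyI hy'W with h | h | h | h
  · exact absurd (h ▸ hyI'.2) (by rw [Matrix.trace_one]; decide)
  · exact absurd (h ▸ hyI'.2) (by rw [Matrix.trace_neg, Matrix.trace_one]; decide)
  · exact n1 (by rw [← hconj, h])
  · exact n2 (by rw [← hconj, h, neg_mul])

/-- An `L/K`-automorphism fixing a place over `3` is trivial. -/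
lemma eq_one_of_fix {w : Pl L} (h3 : (3 : 𝓞 L) ∈ w.asIdeal) {s : L ≃ₐ[K] L}
    (hs : s • w = w) : s = 1 := by
  have := T.isGalois_L
  have := T.isGalois_K
  obtain ⟨W, hW⟩ := CFT.exists_plUnder_eq (F := N) w
  have h3W : (3 : 𝓞 N) ∈ W.asIdeal := by
    rw [← hW, asIdeal_plUnder, Ideal.under, Ideal.mem_comap, map_ofNat] at h3
    exact h3
  set t : N ≃ₐ[K] N := s.liftNormal N with ht
  -- a lift `t` of `s` sends `W` to a place over `w`
  have hu : plUnder L (t • W) = w := by
    refine HeightOneSpectrum.ext (SetLike.ext fun x => ?_)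
    conv_rhs => rw [← hs, smul_asIdeal, Ideal.mem_pointwise_smul_iff_inv_smul_mem, ← hW,
      asIdeal_plUnder, Ideal.under, Ideal.mem_comap]
    rw [asIdeal_plUnder, Ideal.under, Ideal.mem_comap, smul_asIdeal,
      Ideal.mem_pointwise_smul_iff_inv_smul_mem]
    have e : t⁻¹ • algebraMap (𝓞 L) (𝓞 N) x = algebraMap (𝓞 L) (𝓞 N) (s⁻¹ • x) := by
      rw [inv_smul_eq_iff]
      refine RingOfIntegers.ext ?_
      change algebraMap L N (x : L) = t (algebraMap L N (s⁻¹ (x : L)))
      rw [ht, AlgEquiv.liftNormal_commutes, ← AlgEquiv.mul_apply, mul_inv_cancel,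
        AlgEquiv.one_apply]
    rw [e]
  obtain ⟨r, hr⟩ := exists_smul_eq_of_plUnder_eq (K := L) (w := t • W) (w' := W) (by rw [hu, hW])
  -- correcting by an element over `L` gives `g` fixing `W`
  set g : N ≃ₐ[ℚ] N := r.restrictScalars ℚ * t.restrictScalars ℚ with hgdef
  have hgW : g • W = W := by
    refine HeightOneSpectrum.ext ?_
    have := congrArg HeightOneSpectrum.asIdeal hr
    rw [smul_asIdeal, smul_asIdeal, Ideal.pointwise_smul_def, Ideal.pointwise_smul_def,
      Ideal.map_map] at this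
    rw [smul_asIdeal, Ideal.pointwise_smul_def]
    exact this
  have hdet : (T.e g : M₃).det = 1 := (T.det_e_eq_one_iff g).mpr fun x => by
    change r (t (algebraMap K N x)) = _
    rw [t.commutes, IsScalarTower.algebraMap_apply K L N, r.commutes]
  -- so `g` lies in `Q₈`, whose fixed field contains `L`
  have hQ := T.inQ8_of_fix h3W hgW hdet
  refine AlgEquiv.ext fun x => (algebraMap L N).injective ?_
  have h := (T.fixL g).mpr hQ x
  rw [AlgEquiv.one_apply]
  rw [show g (algebraMap L N x) = r (t (algebraMap L N x)) from rfl, ht,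
    AlgEquiv.liftNormal_commutes, r.commutes] at h
  exact h

/-- All of `Gal(N/L)` fixes a place over `3` whose residue field over `L` is prime. -/
lemma smul_eq_self {W : Pl N} (h3 : (3 : 𝓞 N) ∈ W.asIdeal) (hq : resCard (plUnder L W) = 3)
    (g : N ≃ₐ[L] N) : g • W = W := by
  have := T.isGalois_L
  obtain ⟨y, hy, hyI⟩ := T.exists_tame h3
  have hfix : ∀ g : N ≃ₐ[L] N, Congr g W 1 → g • W = W := fun g hg => by
    refine HeightOneSpectrum.ext ?_
    have : g • W.asIdeal ≤ W.asIdeal := by
      rw [Ideal.pointwise_smul_def, Ideal.map_le_iff_le_comap]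
      exact fun x hx => hg.smul_mem one_pos hx
    exact (g • W).isMaximal.eq_of_le W.isPrime.ne_top this
  -- a decomposition element `z` outside inertia
  obtain ⟨z, hz, hzI⟩ : ∃ z : N ≃ₐ[L] N, z • W = W ∧ ¬ Congr z W 1 := by
    by_contra hno
    push Not at hno
    have hW := resCard_eq_of_stabilizer_inert W hno
    rw [hq] at hW
    have hy4 : y ^ 4 = 1 := T.eL_injective (Units.ext (by
      rw [map_one, map_pow, Units.val_one, Units.val_pow_eq_pow_val,
        show (T.eL y : M₃) ^ 4 = (T.eL y : M₃) * T.eL y * ((T.eL y : M₃) * T.eL y) by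
          rw [pow_succ, pow_succ, pow_succ, pow_one]; simp only [mul_assoc],
        isI_mul_self hyI, neg_mul_neg, one_mul]))
    have h2 := hy.inert_pow_eq_one hy4 (not_mem_of_three h3 (by norm_num))
    rw [hW] at h2
    have := T.neg_of_isI hyI
    rw [← pow_two, show y ^ 2 = 1 from h2, map_one, Units.val_one] at this
    exact neg_one_ne_one this.symm
  have hyy : (T.eL (y * y) : M₃) = -1 := T.neg_of_isI hyI
  have hmem : ∀ h : N ≃ₐ[L] N, (T.eL h : M₃) = 1 ∨ (T.eL h : M₃) = -1 ∨
      (T.eL h : M₃) = T.eL y ∨ (T.eL h : M₃) = -(T.eL y : M₃) → Congr h W 1 := by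
    intro h hh
    rcases hh with e | e | e | e
    · rw [show h = 1 from T.eL_injective (Units.ext (by rw [e, map_one, Units.val_one]))]
      exact Congr.one
    · rw [show h = y * y from T.eL_injective (Units.ext (by rw [e, hyy]))]
      exact hy.inert_mul hy
    · rw [show h = y from T.eL_injective (Units.ext e)]; exact hy
    · rw [show h = y * y * y from T.eL_injective (Units.ext (by
        rw [map_mul, Units.val_mul, hyy, neg_mul, one_mul, e]))]
      exact (hy.inert_mul hy).inert_mul hy
  have hz4 : IsI (T.eL z : M₃) := (T.eL_isQ z).resolve_left (fun e => hzI (hmem z (Or.inl e)))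
    |>.resolve_left fun e => hzI (hmem z (Or.inr (Or.inl e)))
  have hzy : (T.eL z : M₃) ≠ T.eL y := fun e => hzI (hmem z (Or.inr (Or.inr (Or.inl e))))
  have hzy' : (T.eL z : M₃) ≠ -(T.eL y : M₃) :=
    fun e => hzI (hmem z (Or.inr (Or.inr (Or.inr e))))
  have hneg : ∀ h : N ≃ₐ[L] N, h • W = W → ∀ h' : N ≃ₐ[L] N,
      (T.eL h' : M₃) = -(T.eL h : M₃) → h' • W = W := fun h hW h' he => by
    rw [show h' = y * y * h from T.eL_injective (Units.ext (by
      rw [map_mul, Units.val_mul, hyy, neg_mul, one_mul, he])), mul_smul, hW,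
      hfix _ (hy.inert_mul hy)]
  -- `y` and `z` generate
  rcases T.eL_isQ g with e | e | e
  · exact hfix g (hmem g (Or.inl e))
  · exact hfix g (hmem g (Or.inr (Or.inl e)))
  rcases generate hyI hz4 hzy hzy' e with e | e | e | e | e | e
  · exact hfix g (hmem g (Or.inr (Or.inr (Or.inl e))))
  · exact hfix g (hmem g (Or.inr (Or.inr (Or.inr e))))
  · rw [show g = z from T.eL_injective (Units.ext e)]; exact hz
  · exact hneg z hz g e
  · rw [show g = y * z from T.eL_injective (Units.ext (by rw [map_mul, Units.val_mul, e])),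
      mul_smul, hz, hfix y hy]
  · exact hneg (y * z) (by rw [mul_smul, hz, hfix y hy]) g (by rw [map_mul, Units.val_mul, e])

/-- No inertia in `N/L` away from `3`. -/
lemma plRamIdx_eq_one {W : Pl N} (h3 : (3 : 𝓞 N) ∉ W.asIdeal) : plRamIdx L W = 1 := by
  have := T.isGalois_L
  refine plRamIdx_eq_one_of_inertia W fun g hg => T.eL_injective ?_
  have hgc : Congr g W 1 := Congr.one_iff.mpr hg
  have hu := T.unipotent W h3 _ (congr_restrict.mpr hgc)
  rw [← GL2Tower.eL_apply] at hu
  apply Units.ext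
  rw [map_one, Units.val_one]
  have key : ∀ X : M₃, IsQ X → (X - 1) ^ 2 = 0 → X = 1 := by
    intro X hX hX2
    have e : X * X - X - X + 1 = 0 := by rw [← hX2]; noncomm_ring
    rcases hX with h | h | h
    · exact h
    · subst h
      exfalso
      have := congrFun (congrFun e 0) 0
      simp at this
      revert this; decide
    · exfalso
      rw [isI_mul_self h] at e
      have h2 : X = 0 := by
        have h3' : (2 : ZMod 3) • X = 0 := by
          rw [two_smul]
          have := congrArg (fun A => -A) e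
          simpa [sub_eq_add_neg, add_comm, add_left_comm] using this
        have := congrArg ((2 : ZMod 3) • ·) h3'
        rwa [smul_smul, show (2 : ZMod 3) * 2 = 1 by decide, one_smul, smul_zero] at this
      have := h.1
      rw [h2, Matrix.det_zero] at this
      exact zero_ne_one this
  exact key _ (T.eL_isQ g) hu

end QTower

end Fermat.LT.Theta.Gal
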