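import Fermat.Agent.LT.Theta.Gal.Fin3
import Fermat.Agent.LT.Theta.Gal.Inertia
import Fermat.Agent.CFT.Density.InertiaLift

/-!
# The field cut out by the mod `3` representation

`GL2Tower` is the data of this field, given by `exists_gl2Tower`; `qTower` adds the inertia
conditions of `QTower`.
-/

set_option autoImplicit false
set_option linter.unusedSectionVars false

noncomputable section

open NumberField Fermat.CFT

namespace Fermat.LT.Theta.Gal

local notation "G₃" => GL (Fin 2) (ZMod 3)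
local notation "M₃" => Matrix (Fin 2) (Fin 2) (ZMod 3)
local notation "ℚbar" => AlgebraicClosure ℚ
local notation "Γℚ" => (AlgebraicClosure ℚ ≃ₐ[ℚ] AlgebraicClosure ℚ)

/-- The finite Galois data of a mod `3` representation: `N/ℚ` with group `GL₂(𝔽₃)`, `L` the fixed
field of `Q₈`, `K` that of `SL₂`. -/
structure GL2Tower (K L N : Type) [Field K] [NumberField K] [Field L] [NumberField L] [Algebra K L]
    [Field N] [NumberField N] [Algebra L N] [Algebra K N] [IsScalarTower K L N] where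
  /-- `N/ℚ` is Galois. -/
  galois : IsGalois ℚ N
  /-- The identification of the Galois group with `GL₂(𝔽₃)`. -/
  e : (N ≃ₐ[ℚ] N) ≃* G₃
  /-- `g` fixes `L` exactly when its matrix lies in `Q₈`. -/
  fixL : ∀ g : N ≃ₐ[ℚ] N, (∀ x : L, g (algebraMap L N x) = algebraMap L N x) ↔ InQ8 (e g)
  /-- `g` fixes `K` exactly when its matrix has determinant one. -/
  fixK : ∀ g : N ≃ₐ[ℚ] N, (∀ x : K, g (algebraMap K N x) = algebraMap K N x) ↔
    Matrix.GeneralLinearGroup.det (e g) = 1

/-- The tower with inertia of order eight at `3` and unipotent inertia elsewhere. -/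
structure QTower (K L N : Type) [Field K] [NumberField K] [Field L] [NumberField L] [Algebra K L]
    [Field N] [NumberField N] [Algebra L N] [Algebra K N] [IsScalarTower K L N]
    extends GL2Tower K L N where
  /-- Over `3` inertia has an element of order eight. -/
  inertia3 : ∀ W : Pl N, (3 : 𝓞 N) ∈ W.asIdeal →
    ∃ g : N ≃ₐ[ℚ] N, Congr g W 1 ∧ orderOf (e g) = 8
  /-- Away from `3` inertia acts unipotently. -/
  unipotent : ∀ W : Pl N, (3 : 𝓞 N) ∉ W.asIdeal → ∀ g : N ≃ₐ[ℚ] N, Congr g W 1 →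
    ((e g : M₃) - 1) ^ 2 = 0

variable (ρ : Γℚ →* GL (Fin 2) (ZMod 3))

/-- The fixed field of the kernel. -/
def nField : IntermediateField ℚ ℚbar := IntermediateField.fixedField ρ.ker

variable {ρ}

section Continuous

variable (hc : Continuous ρ)

include hc

/-- The kernel of a continuous representation is open. -/
lemma isOpen_ker : IsOpen (ρ.ker : Set Γℚ) :=
  (isOpen_discrete ({1} : Set G₃)).preimage hc

/-- The fixing subgroup of `N` is the kernel. -/
lemma fixingSubgroup_nField : (nField ρ).fixingSubgroup = ρ.ker :=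
  InfiniteGalois.fixingSubgroup_fixedField
    (⟨ρ.ker, Subgroup.isClosed_of_isOpen _ (isOpen_ker hc)⟩ : ClosedSubgroup Γℚ)

/-- `N` is finite over `ℚ`. -/
lemma finite_nField : FiniteDimensional ℚ (nField ρ) :=
  (InfiniteGalois.isOpen_iff_finite _).mp (by
    change IsOpen ((nField ρ).fixingSubgroup : Set Γℚ)
    rw [fixingSubgroup_nField hc]; exact isOpen_ker hc)

/-- `N` is Galois over `ℚ`. -/
lemma isGalois_nField : IsGalois ℚ (nField ρ) :=
  (InfiniteGalois.normal_iff_isGalois _).mp (by rw [fixingSubgroup_nField hc]; infer_instance)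

variable [FiniteDimensional ℚ (nField ρ)] [Normal ℚ (nField ρ)]

/-- Restriction to `N` has the same kernel as the representation. -/
lemma ker_restrict : (AlgEquiv.restrictNormalHom (F := ℚ) (K₁ := ℚbar) (nField ρ)).ker = ρ.ker := by
  ext σ
  rw [MonoidHom.mem_ker, restrict_eq_one_iff, fixingSubgroup_nField hc]

variable (hs : Function.Surjective ρ)

include hs

/-- `Gal(N/ℚ) ≅ GL₂(𝔽₃)`. -/
def nEquiv : ((nField ρ) ≃ₐ[ℚ] (nField ρ)) ≃* G₃ :=
  (QuotientGroup.quotientKerEquivOfSurjective (AlgEquiv.restrictNormalHom (nField ρ))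
      (AlgEquiv.restrictNormalHom_surjective ℚbar)).symm.trans
    ((QuotientGroup.quotientMulEquivOfEq (ker_restrict hc)).trans
      (QuotientGroup.quotientKerEquivOfSurjective ρ hs))

/-- On restrictions the isomorphism is the given representation. -/
lemma nEquiv_restrict (σ : Γℚ) :
    nEquiv hc hs (AlgEquiv.restrictNormalHom (nField ρ) σ) = ρ σ := by
  have h : (QuotientGroup.quotientKerEquivOfSurjective (AlgEquiv.restrictNormalHom (nField ρ))
      (AlgEquiv.restrictNormalHom_surjective ℚbar)).symm (AlgEquiv.restrictNormalHom (nField ρ) σ)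
      = (σ : Γℚ ⧸ _) := by
    rw [MulEquiv.symm_apply_eq]; rfl
  rw [nEquiv, MulEquiv.trans_apply, h]
  rfl

end Continuous

variable {K L : Type} [Field K] [NumberField K] [Field L] [NumberField L] [Algebra K L]
  {ι : L →+* ℚbar} (hF : FieldData K L ρ ι)

include hF

/-- `L` lies in `N`. -/
lemma mem_nField (x : L) : ι x ∈ nField ρ := by
  rw [nField, IntermediateField.mem_fixedField_iff]
  intro σ hσ
  refine (hF.fixL σ).mpr ?_ x
  rw [MonoidHom.mem_ker.mp hσ]
  exact ⟨by simp, Or.inr (Or.inl (by simp))⟩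

/-- `L` inside `N`. -/
def lIncl : L →+* nField ρ := ι.codRestrict (nField ρ) (mem_nField hF)

/-- The value of `lIncl`. -/
lemma coe_lIncl (x : L) : (lIncl hF x : ℚbar) = ι x := rfl

/-- `ζ₃ ∈ K`. -/
lemma exists_zeta (hdet : ∀ σ, Matrix.GeneralLinearGroup.det (ρ σ) =
    WeierstrassCurve.modThreeCyclotomicChar σ) : ∃ ζ : K, IsPrimitiveRoot ζ 3 := by
  obtain ⟨ζ, hζ⟩ : ∃ ζ : ℚbar, IsPrimitiveRoot ζ 3 :=
    HasEnoughRootsOfUnity.exists_primitiveRoot ℚbar 3
  set f : K →ₐ[ℚ] ℚbar := (ι.comp (algebraMap K L)).toRatAlgHom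
  suffices h : ζ ∈ f.fieldRange by
    obtain ⟨z, hz⟩ := h
    exact ⟨z, IsPrimitiveRoot.of_map_of_injective (f := f) (hz ▸ hζ) f.injective⟩
  rw [← InfiniteGalois.fixedField_fixingSubgroup f.fieldRange, IntermediateField.mem_fixedField_iff]
  intro σ hσ
  rw [IntermediateField.mem_fixingSubgroup_iff] at hσ
  have hd := (hF.fixK σ).mp fun x => hσ _ ⟨x, rfl⟩
  rw [hdet, WeierstrassCurve.modThreeCyclotomicChar_apply] at hd
  have h := modularCyclotomicCharacter.spec ℚbar (IsAlgClosed.card_rootsOfUnity_eq ℚbar 3)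
    (σ : ℚbar ≃+* ℚbar) (t := hζ.toRootsOfUnity.1) hζ.toRootsOfUnity.2
  rw [hd, Units.val_one, ZMod.val_one 3, pow_one] at h
  exact h

variable [FiniteDimensional ℚ (nField ρ)] [Normal ℚ (nField ρ)] [Algebra L (nField ρ)]
  [Algebra K (nField ρ)] [IsScalarTower K L (nField ρ)]

/-- The tower cut out by a continuous surjective representation. -/
theorem exists_gl2Tower (hc : Continuous ρ) (hs : Function.Surjective ρ)
    (hL : algebraMap L (nField ρ) = lIncl hF) : ∃ T : GL2Tower K L (nField ρ),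
      ∀ σ, T.e (AlgEquiv.restrictNormalHom (nField ρ) σ) = ρ σ := by
  have hfix : ∀ (σ : Γℚ) (x : L),
      AlgEquiv.restrictNormalHom (nField ρ) σ (algebraMap L (nField ρ) x) =
        algebraMap L (nField ρ) x ↔
        σ (ι x) = ι x := fun σ x => by
    rw [Subtype.ext_iff, show ((AlgEquiv.restrictNormalHom (nField ρ) σ)
      (algebraMap L (nField ρ) x) : ℚbar) = σ (algebraMap L (nField ρ) x : ℚbar) from
      AlgEquiv.restrictNormal_commutes σ (nField ρ) _, hL, coe_lIncl]
  refine ⟨⟨isGalois_nField hc, nEquiv hc hs, fun g => ?_, fun g => ?_⟩, nEquiv_restrict hc hs⟩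
  · obtain ⟨σ, rfl⟩ := AlgEquiv.restrictNormalHom_surjective ℚbar g
    rw [nEquiv_restrict, ← hF.fixL]
    exact forall_congr' fun x => hfix σ x
  · obtain ⟨σ, rfl⟩ := AlgEquiv.restrictNormalHom_surjective ℚbar g
    rw [nEquiv_restrict, ← hF.fixK]
    refine forall_congr' fun x => ?_
    rw [IsScalarTower.algebraMap_apply K L (nField ρ) x]
    exact hfix σ _

omit hF [Algebra L (nField ρ)] [Algebra K (nField ρ)] [IsScalarTower K L (nField ρ)] in
/-- Inertia at a place of `N` is the restriction of inertia at a place of `ℚ̄` over the same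
prime. -/
lemma exists_lift_inertia [NumberField (nField ρ)] {W : Pl (nField ρ)}
    {g : (nField ρ) ≃ₐ[ℚ] (nField ρ)} (hg : Congr g W 1) :
    ∃ ℓ : ℕ, ℓ.Prime ∧ (ℓ : 𝓞 (nField ρ)) ∈ W.asIdeal ∧
      ∃ A : ValuationSubring ℚbar, A.LiesOverPrime ℓ ∧ ∃ σ ∈ A.inertiaSubgroupIn ℚ,
        AlgEquiv.restrictNormalHom (nField ρ) σ = g := by
  obtain ⟨ℓ, hℓ, hℓW⟩ := exists_prime_natCast_mem W
  obtain ⟨A, hA, hAW⟩ := exists_place_over (nField ρ) W.isPrime hℓ hℓW
  refine ⟨ℓ, hℓ, hℓW, A, hA, exists_mem_inertia_restrict hℓ hA fun x => ?_⟩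
  have := hg x
  rw [pow_one] at this
  change _ ∈ Ideal.comap _ _
  rwa [hAW]

/-- The fields form a `QTower` whose isomorphism with the group is given by `ρ`. -/
theorem qTower (hρ : RhoData ρ) (hL : algebraMap L (nField ρ) = lIncl hF) :
    ∃ T : QTower K L (nField ρ),
      ∀ σ, T.e (AlgEquiv.restrictNormalHom (nField ρ) σ) = ρ σ := by
  obtain ⟨T, hT⟩ := exists_gl2Tower hF hρ.continuous hρ.surjective hL
  refine ⟨⟨T, fun W hW => ?_, fun W hW g hgW => ?_⟩, hT⟩
  · have h3 : ((3 : ℕ) : 𝓞 (nField ρ)) ∈ W.asIdeal := by exact_mod_cast hW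
    obtain ⟨A, hA, hAW⟩ := exists_place_over (nField ρ) W.isPrime Nat.prime_three h3
    obtain ⟨σ, hσ, h8⟩ := hρ.supersingular A hA
    refine ⟨AlgEquiv.restrictNormalHom (nField ρ) σ, fun x => ?_, by rw [hT]; exact h8⟩
    rw [pow_one, ← hAW, Ideal.mem_comap, map_sub, algebraMap_restrict_smul]
    exact (mem_inertiaSubgroupIn_iff Nat.prime_three hA σ).mp hσ _
  · obtain ⟨ℓ, hℓ, hℓW, A, hA, σ, hσ, rfl⟩ := exists_lift_inertia hgW
    rw [hT]
    refine hρ.unipotent ℓ hℓ (fun h => hW ?_) A hA σ hσ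
    subst h
    exact_mod_cast hℓW

end Fermat.LT.Theta.Gal
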